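import Fermat.Agent.BohrLandau.Approx
import Fermat.Agent.DirichletLineZeros.Truncation

/-!
# The partial sums of `L (σ + it, χ)` beyond `q t`

In each residue class modulo `q` the phase `t log n` has first differences below `1` for
`q t ≤ n`, so Kuzmin–Landau bounds every dyadic block and `L (σ + it, χ)` differs from its sum up to
`M` by `O_q ((M + 1) ^ (1/2 - σ) (1 + √(M + 1) / t))` for `1/2 ≤ σ ≤ 4` and `q t ≤ M + 1`.
-/

set_option autoImplicit false

noncomputable section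

namespace FA.DirichletOrdinates

open Finset
open DirichletCharacter (LFunction)
open FA.Subconvexity (expI phase)
open scoped Real

variable {q : ℕ} [NeZero q] {χ : DirichletCharacter ℂ q}

omit [NeZero q] in
/-- A range of `K` periods, sorted by residues. -/
theorem sum_range_periods (f : ℕ → ℂ) (K : ℕ) :
    ∑ n ∈ range (q * K), f n = ∑ r ∈ range q, ∑ m ∈ range K, f (r + q * m) := by
  induction K with
  | zero => simp
  | succ K ih =>
    rw [Nat.mul_succ, sum_range_add, ih, ← sum_add_distrib]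
    refine sum_congr rfl fun r _ => ?_
    rw [sum_range_succ, add_comm (q * K) r]

/-- One residue class in a block beyond `q t`. -/
theorem norm_class_le {t : ℝ} (ht : 0 < t) {c a : ℕ} (hc : a ≤ c) (hta : q * t ≤ a) (hqa : q ≤ a)
    {K : ℕ} (hK : ∀ m < K, c + q * m < 2 * a) :
    ‖∑ m ∈ range K, expI (phase t (c + q * m))‖ ≤ 1 + 6 * π * a / (q * t) := by
  have hq : (0 : ℝ) < q := Nat.cast_pos.2 (NeZero.pos q)
  have ha : (0 : ℝ) < a := (by positivity : (0 : ℝ) < q * t).trans_le hta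
  have hlam : 0 < q * t / (3 * a) := by positivity
  rw [range_eq_Ico]
  refine (FA.Subconvexity.norm_kuzmin_le (φ := fun m => phase t (c + q * m)) (k := -1) hlam
    (fun m hm => ?_) (Or.inl fun m hm _ => ?_)).trans (le_of_eq ?_)
  · have hm1 : ((c + q * m : ℕ) : ℝ) + q ≤ 3 * a := by
      exact_mod_cast (show c + q * m + q ≤ 3 * a by have := hK m (mem_Ico.1 hm).2; omega)
    have hn : (a : ℝ) ≤ (c + q * m : ℕ) := Nat.cast_le.2 (hc.trans (Nat.le_add_right _ _))
    obtain ⟨n, hn'⟩ : ∃ n : ℝ, n = ((c + q * m : ℕ) : ℝ) := ⟨_, rfl⟩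
    rw [← hn'] at hm1 hn
    have hn0 : 0 < n := ha.trans_le hn
    have e : phase t (c + q * (m + 1)) - phase t (c + q * m) =
        -(t * Real.log ((n + q) / n)) := by
      rw [phase, phase, Real.log_div (by linarith) hn0.ne', hn']
      push_cast
      ring_nf
    have h1 := Real.one_sub_inv_le_log_of_pos (show 0 < (n + q) / n by positivity)
    have h2 := Real.log_le_sub_one_of_pos (show 0 < (n + q) / n by positivity)
    rw [show 1 - ((n + q) / n)⁻¹ = q / (n + q) by field_simp; ring] at h1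
    rw [show (n + q) / n - 1 = q / n by field_simp; ring] at h2
    have h3 : q * t / (3 * a) ≤ t * Real.log ((n + q) / n) := by
      refine le_trans ?_ (mul_le_mul_of_nonneg_left h1 ht.le)
      rw [mul_div_assoc', mul_comm (q : ℝ) t]
      exact div_le_div_of_nonneg_left (by positivity) (by positivity) hm1
    have h4 : t * Real.log ((n + q) / n) ≤ 1 := by
      refine (mul_le_mul_of_nonneg_left h2 ht.le).trans ?_
      rw [mul_div_assoc', div_le_one hn0, mul_comm]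
      exact hta.trans hn
    have h5 : q * t / (3 * a) ≤ 1 := by
      rw [div_le_one (by positivity)]
      linarith
    rw [e]
    push_cast
    constructor <;> linarith [Real.pi_gt_three]
  · have hn0 : (0 : ℝ) < (c + q * m : ℕ) :=
      ha.trans_le (Nat.cast_le.2 (hc.trans (Nat.le_add_right _ _)))
    simp only [phase]
    obtain ⟨n, hn⟩ : ∃ n : ℝ, n = ((c + q * m : ℕ) : ℝ) := ⟨_, rfl⟩
    rw [← hn, show ((c + q * (m + 1) : ℕ) : ℝ) = n + q by rw [hn]; push_cast; ring,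
      show ((c + q * (m + 2) : ℕ) : ℝ) = n + 2 * q by rw [hn]; push_cast; ring]
    rw [← hn] at hn0
    have h : Real.log (n * (n + 2 * q)) ≤ Real.log ((n + q) ^ 2) :=
      Real.log_le_log (by positivity) (by nlinarith [sq_nonneg (q : ℝ)])
    rw [Real.log_mul hn0.ne' (by positivity), Real.log_pow] at h
    push_cast at h
    nlinarith [mul_le_mul_of_nonneg_left h ht.le]
  · field_simp
    ring

/-- **One block beyond `q t`.** -/
theorem norm_char_block_le {t : ℝ} (ht : 0 < t) {a b : ℕ} (hta : q * t ≤ a) (hqa : q ≤ a)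
    (hb : b ≤ 2 * a) (χ : DirichletCharacter ℂ q) :
    ‖∑ n ∈ Ico a b, χ n * expI (phase t n)‖ ≤ 2 * q + 6 * π * a / t := by
  have hq : (0 : ℝ) < q := Nat.cast_pos.2 (NeZero.pos q)
  obtain ⟨K, hK⟩ : ∃ K, K = (b - a) / q := ⟨_, rfl⟩
  have h1 : q * K ≤ b - a := hK ▸ Nat.mul_div_le _ _
  have h2 : b - a < q * K + q := by
    have := Nat.lt_mul_div_succ (b - a) (NeZero.pos q)
    rw [← hK, mul_add, mul_one] at this
    exact this
  rcases le_or_gt b a with hab | hab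
  · rw [Ico_eq_empty (not_lt.2 hab), sum_empty, norm_zero]
    positivity
  rw [← sum_Ico_consecutive _ (show a ≤ a + q * K by omega) (show a + q * K ≤ b by omega),
    sum_Ico_eq_sum_range, Nat.add_sub_cancel_left, sum_range_periods]
  refine (norm_add_le _ _).trans ((add_le_add ((norm_sum_le _ _).trans
    (sum_le_sum (g := fun _ => 1 + 6 * π * a / (q * t)) fun r hr => ?_))
    ((norm_sum_le _ _).trans (sum_le_sum (g := fun _ => (1 : ℝ)) fun n _ => ?_))).trans ?_)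
  · have e : ∀ m, χ ((a + (r + q * m) : ℕ) : ZMod q) = χ ((a + r : ℕ) : ZMod q) := fun m => by
      congr 1
      push_cast
      rw [ZMod.natCast_self]
      ring
    simp only [e, ← mul_sum, norm_mul]
    refine le_trans (mul_le_of_le_one_left (norm_nonneg _) (χ.norm_le_one _)) ?_
    simp only [← add_assoc]
    refine norm_class_le ht (Nat.le_add_right a r) hta hqa fun m hm => ?_
    have hr' := mem_range.1 hr
    have : q * m + q ≤ q * K := by rw [← Nat.mul_succ]; exact Nat.mul_le_mul_left q hm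
    omega
  · rw [norm_mul, FA.Subconvexity.norm_expI, mul_one]
    exact χ.norm_le_one _
  · rw [sum_const, sum_const, card_range, Nat.card_Ico, nsmul_eq_mul, nsmul_eq_mul, mul_one]
    have h3 : ((b - (a + q * K) : ℕ) : ℝ) ≤ q := Nat.cast_le.2 (by omega)
    refine (add_le_add le_rfl h3).trans (le_of_eq ?_)
    field_simp
    ring

omit [NeZero q] in
/-- A term of the series. -/
theorem term_eq_weight (χ : DirichletCharacter ℂ q) {σ t : ℝ} {n : ℕ} (hn : 1 ≤ n) :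
    χ n * (n : ℂ) ^ (-((σ : ℂ) + t * Complex.I)) =
      (((n : ℝ) ^ (-σ) : ℝ) : ℂ) * (χ n * expI (phase t n)) := by
  rw [Complex.cpow_neg, ← one_div, FA.BohrLandau.term_eq_rpow hn]
  ring

/-- A block with its weights. -/
theorem norm_char_block_line_le {σ t A : ℝ} (hσ : 1 / 2 ≤ σ) (hA : 0 < A) (ht : 0 < t) {a b : ℕ}
    (hta : q * t ≤ a) (hqa : q ≤ a) (hAa : A ≤ a) (hab : a ≤ b) (hb : b ≤ 2 * a)
    (χ : DirichletCharacter ℂ q) :
    ‖∑ n ∈ Ico a b, χ n * (n : ℂ) ^ (-((σ : ℂ) + t * Complex.I))‖ ≤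
      A ^ (1 / 2 - σ) * (2 * q / √(a : ℝ) + 6 * π * √(a : ℝ) / t) := by
  have ha1 : 1 ≤ a := (NeZero.pos q).trans_le hqa
  have ha0 : (0 : ℝ) < a := Nat.cast_pos.2 ha1
  rw [sum_congr rfl fun n hn => term_eq_weight χ (σ := σ) (t := t) (ha1.trans (mem_Ico.1 hn).1)]
  refine (FA.Subconvexity.norm_sum_weight_le (w := fun n => (n : ℝ) ^ (-σ))
    (B := 2 * q + 6 * π * a / t) hab (fun m _ _ => by positivity) (fun m hm _ => ?_)
    fun m _ hm' => norm_char_block_le ht hta hqa (hm'.trans hb) χ).trans ?_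
  · exact Real.rpow_le_rpow_of_nonpos (Nat.cast_pos.2 (ha1.trans hm))
      (Nat.cast_le.2 m.le_succ) (by linarith)
  · refine (mul_le_mul_of_nonneg_right (FA.BohrLandau.rpow_neg_le hσ hA hAa)
      (by positivity)).trans (le_of_eq ?_)
    obtain ⟨u, hu⟩ : ∃ u, u = √(a : ℝ) := ⟨_, rfl⟩
    have hu0 : 0 < u := hu ▸ Real.sqrt_pos.2 ha0
    have hua : (a : ℝ) = u * u := by rw [hu, Real.mul_self_sqrt ha0.le]
    simp only [← hu]
    rw [hua]
    field_simp

/-- **The sum over `[a, b)` for `q t ≤ a`.** -/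
theorem norm_char_tail_line_le {σ t A : ℝ} (hσ : 1 / 2 ≤ σ) (hA : 0 < A) (ht : 0 < t)
    (χ : DirichletCharacter ℂ q) :
    ∀ (d a b : ℕ), b - a = d → q * t ≤ a → q ≤ a → A ≤ a → a ≤ b →
    ‖∑ n ∈ Ico a b, χ n * (n : ℂ) ^ (-((σ : ℂ) + t * Complex.I))‖ ≤
      A ^ (1 / 2 - σ) * (8 * q / √(a : ℝ) + (66 * √(b : ℝ) - 47 * √(a : ℝ)) / t) := by
  intro d
  induction d using Nat.strong_induction_on with
  | h d ih =>
    intro a b hd hta hqa hAa hab
    have hq : (0 : ℝ) < q := Nat.cast_pos.2 (NeZero.pos q)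
    have ha1 : 0 < a := (NeZero.pos q).trans_le hqa
    have ha0 : (0 : ℝ) < a := Nat.cast_pos.2 ha1
    have hsa : 0 < √(a : ℝ) := Real.sqrt_pos.2 ha0
    have hsab : √(a : ℝ) ≤ √(b : ℝ) := Real.sqrt_le_sqrt (Nat.cast_le.2 hab)
    have hP : 0 ≤ A ^ (1 / 2 - σ) := Real.rpow_nonneg hA.le _
    rcases le_or_gt b (2 * a) with hb | hb
    · refine (norm_char_block_line_le hσ hA ht hta hqa hAa hab hb χ).trans
        (mul_le_mul_of_nonneg_left (add_le_add ?_ ?_) hP)
      · exact div_le_div_of_nonneg_right (by linarith) hsa.le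
      · refine div_le_div_of_nonneg_right ?_ ht.le
        nlinarith [Real.pi_lt_d2]
    · rw [← sum_Ico_consecutive _ (show a ≤ 2 * a by omega) hb.le]
      refine (norm_add_le _ _).trans ((add_le_add
        (norm_char_block_line_le hσ hA ht hta hqa hAa (show a ≤ 2 * a by omega) le_rfl χ)
        (ih (b - 2 * a) (by omega) (2 * a) b rfl (by push_cast; linarith) (by omega)
          (by push_cast; linarith) hb.le)).trans ?_)
      rw [← mul_add]
      refine mul_le_mul_of_nonneg_left ?_ hP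
      push_cast
      rw [Real.sqrt_mul (by norm_num : (0 : ℝ) ≤ 2)]
      have hr2 : (141 : ℝ) / 100 ≤ √2 := Real.le_sqrt_of_sq_le (by norm_num)
      have e1 : 2 * (q : ℝ) / √(a : ℝ) + 8 * q / (√2 * √(a : ℝ)) ≤ 8 * q / √(a : ℝ) := by
        rw [← div_div, ← add_div]
        refine div_le_div_of_nonneg_right ?_ hsa.le
        have : 8 * (q : ℝ) / √2 ≤ 6 * q := by
          rw [div_le_iff₀ (by linarith)]
          nlinarith
        linarith
      have e2 : 6 * π * √(a : ℝ) / t + (66 * √(b : ℝ) - 47 * (√2 * √(a : ℝ))) / t ≤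
          (66 * √(b : ℝ) - 47 * √(a : ℝ)) / t := by
        rw [← add_div]
        refine div_le_div_of_nonneg_right ?_ ht.le
        nlinarith [mul_nonneg (sub_nonneg.2 hr2) hsa.le, Real.pi_lt_d2]
      linarith

/-- The partial sum on the line `re s = σ`. -/
def charVert (χ : DirichletCharacter ℂ q) (σ : ℝ) (M : ℕ) (t : ℝ) : ℂ :=
  ∑ n ∈ Icc 1 M, χ n * (n : ℂ) ^ (-((σ : ℂ) + t * Complex.I))

/-- The error of the truncation at `M`. -/
def charErr (χ : DirichletCharacter ℂ q) (σ : ℝ) (M : ℕ) (t : ℝ) : ℂ :=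
  LFunction χ (σ + t * Complex.I) - charVert χ σ M t

/-- Beyond `(q t)²` the series is cut trivially. -/
theorem norm_lfunction_far_le (hχ : χ ≠ 1) {σ t : ℝ} (hσ : 1 / 2 ≤ σ) (hσ4 : σ ≤ 4) (ht : 1 ≤ t)
    {X : ℕ} (hqX : q ≤ X) (hX : t ^ 2 ≤ (X : ℝ)) :
    ‖LFunction χ (σ + t * Complex.I) - charVert χ σ X t‖ ≤
      130 * (q : ℝ) ^ 2 * (X : ℝ) ^ (1 / 2 - σ) := by
  have hq : (1 : ℝ) ≤ q := by exact_mod_cast NeZero.pos q
  have hX1 : (1 : ℝ) ≤ X := by exact_mod_cast (NeZero.pos q).trans_le hqX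
  obtain ⟨s, hs⟩ : ∃ s : ℂ, s = σ + t * Complex.I := ⟨_, rfl⟩
  have hre : s.re = σ := by simp [hs]
  have him : s.im = t := by simp [hs]
  have h := FA.DirichletLineZeros.norm_lfunction_sub_sum_le hχ (s := s) (by rw [hre]; linarith) hqX
  rw [charVert, ← hs]
  refine h.trans ?_
  rw [hre]
  obtain ⟨P, hP⟩ : ∃ P, P = (X : ℝ) ^ (1 / 2 - σ) := ⟨_, rfl⟩
  have hP0 : 0 ≤ P := hP ▸ Real.rpow_nonneg (by linarith) _
  have h1 : (X : ℝ) ^ (-σ) ≤ P := hP ▸ Real.rpow_le_rpow_of_exponent_le hX1 (by linarith)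
  have h2 : ‖s‖ * ‖s + 1‖ * (X : ℝ) ^ (-σ - 1) ≤ 30 * (X : ℝ) ^ (-σ) := by
    have n1 := Complex.norm_le_abs_re_add_abs_im s
    rw [hre, him, abs_of_pos (by linarith : (0 : ℝ) < t),
      abs_of_pos (by linarith : (0 : ℝ) < σ)] at n1
    have n2 : ‖s + 1‖ ≤ ‖s‖ + 1 := (norm_add_le _ _).trans (by simp)
    rw [show (-σ - 1) = -σ + -1 by ring, Real.rpow_add (by linarith), Real.rpow_neg_one,
      mul_comm ((X : ℝ) ^ (-σ)), ← mul_assoc]
    refine mul_le_mul_of_nonneg_right ?_ (Real.rpow_nonneg (by linarith) _)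
    rw [← div_eq_mul_inv, div_le_iff₀ (by linarith)]
    calc ‖s‖ * ‖s + 1‖ ≤ (5 * t) * (6 * t) :=
          mul_le_mul (by linarith) (by linarith) (norm_nonneg _) (by linarith)
      _ ≤ 30 * (X : ℝ) := by nlinarith
  have hq2 : (q : ℝ) ≤ (q : ℝ) ^ 2 := by nlinarith
  rw [← hP]
  calc 2 * (q : ℝ) * (X : ℝ) ^ (-σ) + 4 * (q : ℝ) ^ 2 * (‖s‖ * ‖s + 1‖) * (X : ℝ) ^ (-σ - 1)
      ≤ 2 * (q : ℝ) ^ 2 * P + 4 * (q : ℝ) ^ 2 * (30 * P) := by
        rw [mul_assoc (4 * (q : ℝ) ^ 2)]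
        refine add_le_add (mul_le_mul (by linarith) h1 (Real.rpow_nonneg (by linarith) _)
          (by positivity)) (mul_le_mul_of_nonneg_left (h2.trans ?_) (by positivity))
        linarith
    _ ≤ 130 * (q : ℝ) ^ 2 * P := by nlinarith [mul_nonneg (sq_nonneg (q : ℝ)) hP0]

/-- **`L (σ + it, χ)` is near its partial sum.** -/
theorem norm_charErr_le (hχ : χ ≠ 1) {σ t : ℝ} (hσ : 1 / 2 ≤ σ) (hσ4 : σ ≤ 4) (ht : 1 ≤ t)
    {M : ℕ} (hqM : q ≤ M) (hM : q * t ≤ (M : ℝ) + 1) :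
    ‖charErr χ σ M t‖ ≤
      3000 * (q : ℝ) ^ 2 * ((M : ℝ) + 1) ^ (1 / 2 - σ) * (1 + √((M : ℝ) + 1) / t) := by
  have ht0 : 0 < t := by linarith
  have hq : (1 : ℝ) ≤ q := by exact_mod_cast NeZero.pos q
  obtain ⟨X, hX⟩ : ∃ X, X = max M ⌈(q * t) ^ 2⌉₊ := ⟨_, rfl⟩
  have hMX : M ≤ X := hX ▸ le_max_left _ _
  have hXlo : (q * t) ^ 2 ≤ (X : ℝ) :=
    (Nat.le_ceil _).trans (Nat.cast_le.2 (hX ▸ le_max_right _ _))
  have hqt1 : 1 ≤ q * t := one_le_mul_of_one_le_of_one_le hq ht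
  have hM0 : (0 : ℝ) ≤ M := Nat.cast_nonneg M
  have hXhi : (X : ℝ) + 1 ≤ ((M : ℝ) + 1) + 4 * (q * t) ^ 2 := by
    have := (Nat.ceil_lt_add_one (sq_nonneg (q * t))).le
    rw [hX, Nat.cast_max]
    rcases le_total (M : ℝ) (⌈(q * t) ^ 2⌉₊ : ℝ) with h | h
    · rw [max_eq_right h]; nlinarith
    · rw [max_eq_left h]; nlinarith
  obtain ⟨P, hP⟩ : ∃ P, P = ((M : ℝ) + 1) ^ (1 / 2 - σ) := ⟨_, rfl⟩
  obtain ⟨Q, hQ⟩ : ∃ Q, Q = √((M : ℝ) + 1) / t := ⟨_, rfl⟩
  have hQ0 : 0 ≤ Q := hQ ▸ by positivity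
  have hP0 : 0 ≤ P := hP ▸ Real.rpow_nonneg (by positivity) _
  have hXM : (X : ℝ) ^ (1 / 2 - σ) ≤ 16 * P := by
    have hhalf : ((M : ℝ) + 1) / 2 ≤ X := by
      have : (M : ℝ) ≤ X := Nat.cast_le.2 hMX
      have : (1 : ℝ) ≤ X := le_trans (by nlinarith) hXlo
      linarith
    refine (Real.rpow_le_rpow_of_nonpos (by positivity) hhalf (by linarith)).trans ?_
    rw [hP, Real.div_rpow (by positivity) two_pos.le, div_eq_mul_inv, ← Real.rpow_neg two_pos.le,
      mul_comm]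
    refine mul_le_mul_of_nonneg_right ?_ (Real.rpow_nonneg (by positivity) _)
    calc (2 : ℝ) ^ (-(1 / 2 - σ)) ≤ 2 ^ (4 : ℝ) :=
          Real.rpow_le_rpow_of_exponent_le one_le_two (by linarith)
      _ = 16 := by norm_num
  have h1 : ‖charVert χ σ X t - charVert χ σ M t‖ ≤ P * (140 * q + 66 * Q) := by
    have h := norm_char_tail_line_le (A := (M : ℝ) + 1) hσ (by positivity) ht0 χ _ (M + 1) (X + 1)
      rfl (by push_cast; exact hM) (by omega) (by simp) (by omega)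
    rw [← hP] at h
    have e : charVert χ σ X t - charVert χ σ M t =
        ∑ n ∈ Ico (M + 1) (X + 1), χ n * (n : ℂ) ^ (-((σ : ℂ) + t * Complex.I)) := by
      rw [charVert, charVert, show Icc 1 X = Icc 1 M ∪ Ico (M + 1) (X + 1) by
        ext i; simp only [mem_union, mem_Icc, mem_Ico]; omega,
        sum_union (disjoint_left.2 fun i ha hb => by
          simp only [mem_Icc, mem_Ico] at ha hb; omega), add_sub_cancel_left]
    rw [e]
    refine h.trans (mul_le_mul_of_nonneg_left ?_ hP0)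
    push_cast
    have h2 : √((X : ℝ) + 1) / t ≤ Q + 2 * q := by
      rw [hQ, div_add' _ _ _ ht0.ne']
      refine div_le_div_of_nonneg_right ?_ ht0.le
      rw [Real.sqrt_le_iff]
      refine ⟨by positivity, hXhi.trans ?_⟩
      nlinarith [Real.sq_sqrt (show (0 : ℝ) ≤ (M : ℝ) + 1 by positivity),
        mul_nonneg (mul_nonneg (Real.sqrt_nonneg ((M : ℝ) + 1)) ht0.le) (by linarith : (0 : ℝ) ≤ q)]
    have h3 : 8 * (q : ℝ) / √((M : ℝ) + 1) ≤ 8 * q :=
      div_le_self (by positivity) (Real.one_le_sqrt.2 (by linarith))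
    have h4 : (66 * √((X : ℝ) + 1) - 47 * √((M : ℝ) + 1)) / t ≤ 66 * (√((X : ℝ) + 1) / t) := by
      rw [mul_div_assoc']
      exact div_le_div_of_nonneg_right (by linarith [Real.sqrt_nonneg ((M : ℝ) + 1)]) ht0.le
    linarith
  have h2 := (norm_lfunction_far_le hχ hσ hσ4 ht (hqM.trans hMX)
    ((pow_le_pow_left₀ ht0.le (le_mul_of_one_le_left ht0.le hq) 2).trans hXlo)).trans
    (mul_le_mul_of_nonneg_left hXM (by positivity))
  rw [charErr, ← hP, ← hQ, ← sub_add_sub_cancel _ (charVert χ σ X t)]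
  refine ((norm_add_le _ _).trans (add_le_add h2 h1)).trans ?_
  have hq2 : (q : ℝ) ≤ (q : ℝ) ^ 2 := by nlinarith
  have hq3 : (1 : ℝ) ≤ (q : ℝ) ^ 2 := by nlinarith
  nlinarith [mul_nonneg hP0 hQ0, mul_le_mul_of_nonneg_left hq2 hP0,
    mul_le_mul_of_nonneg_left hq3 (mul_nonneg hP0 hQ0)]

end FA.DirichletOrdinates

end
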