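import Fermat.Agent.DirichletOrdinates.MeanSquare
import Fermat.Agent.DirichletZeroCount.Main
import Mathlib.Analysis.Complex.JensenFormula

/-!
# The zeros of `L (s, χ)` off the critical line (Bohr–Landau)

Jensen's inequality on circles centred on `re s = 2` and the mean square give `O (T)` zeros with
`re ρ ≥ σ > 1/2` and `|im ρ| ≤ T`; by the functional equation for primitive `χ` so are those with
`|re ρ - 1/2| ≥ ε`.
-/

set_option autoImplicit false

noncomputable section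

namespace FA.DirichletOrdinates

open Finset Complex MeasureTheory Metric Filter
open DirichletCharacter (LFunction completedLFunction rootNumber)
open FA.DirichletZeroCount
open scoped Real Topology ComplexConjugate

variable {q : ℕ} [NeZero q] {χ : DirichletCharacter ℂ q}

/-- The multiplicity of a zero of `L (s, χ)`. -/
def zeroMult (χ : DirichletCharacter ℂ q) (ρ : ℂ) : ℕ := analyticOrderNatAt (LFunction χ) ρ

theorem neg_two_le_log_lfunction_two (χ : DirichletCharacter ℂ q) {c : ℂ} (hc : c.re = 2) :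
    -2 ≤ Real.log ‖LFunction χ c‖ := by
  have h := (lfunction_two_near χ hc).2
  rw [Real.le_log_iff_exp_le (by linarith)]
  refine le_trans ?_ h
  rw [Real.exp_neg, inv_le_comm₀ (Real.exp_pos 2) (by norm_num)]
  have h1 : Real.exp 2 = Real.exp 1 * Real.exp 1 := by rw [← Real.exp_add]; norm_num
  rw [h1]
  nlinarith [Real.exp_one_gt_d9]

/-- **Jensen's inequality**, against the mean square on the circle. -/
theorem mult_mul_log_le (hχ : χ ≠ 1) {c : ℂ} (hc : c.re = 2) {r R : ℝ} (hr : 0 < r) (hrR : r < R)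
    (F : Finset ℂ) (hF : ∀ ρ ∈ F, ‖c - ρ‖ ≤ r) :
    (∑ ρ ∈ F, (zeroMult χ ρ : ℝ)) * Real.log (R / r) ≤
      Real.circleAverage (fun z => ‖LFunction χ z‖ ^ 2) c R + 2 := by
  classical
  have hR0 : 0 < R := hr.trans hrR
  have hd := DirichletCharacter.differentiable_LFunction hχ
  have han : AnalyticOnNhd ℂ (LFunction χ) (closedBall c |R|) := fun z _ => hd.analyticAt z
  have hlow := neg_two_le_log_lfunction_two χ hc
  have h2 : LFunction χ c ≠ 0 :=
    DirichletCharacter.LFunction_ne_zero_of_one_le_re χ (Or.inl hχ) (by rw [hc]; norm_num)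
  have hJ := han.circleAverage_log_norm hR0.ne' h2
  obtain ⟨φ, hφ⟩ : ∃ φ : ℂ → ℝ, φ = fun u =>
      (MeromorphicOn.divisor (LFunction χ) (closedBall c |R|) u : ℝ) *
        Real.log (R * ‖c - u‖⁻¹) := ⟨_, rfl⟩
  have hφ0 : ∀ u, 0 ≤ φ u := fun u => by
    rw [hφ]
    by_cases hu : u ∈ closedBall c |R|
    · refine mul_nonneg (mod_cast MeromorphicOn.AnalyticOnNhd.divisor_nonneg han u) ?_
      rcases eq_or_ne u c with rfl | huc
      · simp
      rw [mem_closedBall, dist_eq_norm', abs_of_pos hR0] at hu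
      refine Real.log_nonneg ?_
      rw [← div_eq_mul_inv, le_div_iff₀ (norm_pos_iff.2 (sub_ne_zero.2 huc.symm)), one_mul]
      exact hu
    · simp [hu]
  have hφfin : (Function.support φ).Finite := by
    refine ((MeromorphicOn.divisor (LFunction χ) (closedBall c |R|)).finiteSupport
      (isCompact_closedBall _ _)).subset fun u hu => ?_
    rw [hφ] at hu
    simp only [Function.mem_support] at hu ⊢
    intro h
    simp [h] at hu
  have hterm : ∀ ρ ∈ F, (zeroMult χ ρ : ℝ) * Real.log (R / r) ≤ φ ρ := by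
    intro ρ hρ
    have hd' := hF ρ hρ
    have hmem : ρ ∈ closedBall c |R| := by
      rw [mem_closedBall, dist_eq_norm', abs_of_pos hR0]
      linarith
    rcases eq_or_ne ρ c with rfl | hρc
    · have h0 : analyticOrderAt (LFunction χ) ρ = 0 :=
        (han ρ hmem).analyticOrderAt_eq_zero.2 h2
      simp [zeroMult, analyticOrderNatAt, h0, hφ]
    have e : (MeromorphicOn.divisor (LFunction χ) (closedBall c |R|) ρ : ℝ) = zeroMult χ ρ := by
      rw [MeromorphicOn.AnalyticOnNhd.divisor_apply han hmem, zeroMult, analyticOrderNatAt]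
      cases analyticOrderAt (LFunction χ) ρ <;> simp
    have hp : 0 < ‖c - ρ‖ := norm_pos_iff.2 (sub_ne_zero.2 hρc.symm)
    rw [hφ]
    simp only
    rw [e]
    refine mul_le_mul_of_nonneg_left (Real.log_le_log (div_pos hR0 hr) ?_) (Nat.cast_nonneg _)
    rw [← div_eq_mul_inv]
    exact div_le_div_of_nonneg_left hR0.le hp hd'
  have hsum : ∑ ρ ∈ F, φ ρ ≤ ∑ᶠ u, φ u := by
    rw [finsum_eq_sum_of_support_subset φ (s := hφfin.toFinset ∪ F) (by intro u hu; simp [hu])]
    exact sum_le_sum_of_subset_of_nonneg subset_union_right fun u _ _ => hφ0 u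
  have hm : ∀ x ∈ sphere c |R|, Real.log ‖LFunction χ x‖ ≤ ‖LFunction χ x‖ ^ 2 := fun x _ => by
    rcases (norm_nonneg (LFunction χ x)).eq_or_lt with h | h
    · rw [← h]; simp
    · nlinarith [Real.log_le_sub_one_of_pos h, sq_nonneg (‖LFunction χ x‖ - 1)]
  have hi1 : CircleIntegrable (fun z => Real.log ‖LFunction χ z‖) c R :=
    (han.mono sphere_subset_closedBall).meromorphicOn.circleIntegrable_log_norm
  have hi2 : CircleIntegrable (fun z => ‖LFunction χ z‖ ^ 2) c R :=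
    ((hd.continuous.comp (continuous_circleMap c R)).norm.pow 2).intervalIntegrable _ _
  have hup := Real.circleAverage_mono hi1 hi2 hm
  simp only [hφ] at hsum
  rw [sum_mul]
  refine (sum_le_sum hterm).trans ?_
  simp only [hφ]
  linarith

/-- The integral of the circle averages over the centres. -/
theorem integral_circleAverage_le (hχ : χ ≠ 1) {σ₀ C R T : ℝ}
    (hC : ∀ σ T : ℝ, σ₀ ≤ σ → σ ≤ 4 → 2 ≤ T →
      ∫ t in (-T)..T, ‖LFunction χ (σ + t * I)‖ ^ 2 ≤ C * T)
    (hR0 : 0 < R) (hR : R ≤ 3 / 2) (hσR : σ₀ ≤ 2 - R) (hT : 2 ≤ T) :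
    (Continuous fun y : ℝ => Real.circleAverage (fun z => ‖LFunction χ z‖ ^ 2)
        (((2 : ℝ) : ℂ) + y * I) R) ∧
      ∫ y in (-T)..T, Real.circleAverage (fun z => ‖LFunction χ z‖ ^ 2)
        (((2 : ℝ) : ℂ) + y * I) R ≤ C * (T + 2) := by
  obtain ⟨G, hG⟩ : ∃ G : ℝ → ℝ → ℝ, G = fun y θ =>
      ‖LFunction χ ((2 + R * Real.cos θ : ℝ) + (y + R * Real.sin θ : ℝ) * I)‖ ^ 2 := ⟨_, rfl⟩
  have hd := DirichletCharacter.differentiable_LFunction hχ
  have hGc : Continuous (Function.uncurry G) := by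
    rw [hG]
    exact (hd.continuous.comp (f := fun p : ℝ × ℝ =>
      ((2 + R * Real.cos p.2 : ℝ) : ℂ) + (p.1 + R * Real.sin p.2 : ℝ) * I)
        (by fun_prop)).norm.pow 2
  have hca : ∀ y : ℝ, Real.circleAverage (fun z => ‖LFunction χ z‖ ^ 2)
      (((2 : ℝ) : ℂ) + y * I) R = (2 * π)⁻¹ * ∫ θ in (0 : ℝ)..2 * π, G y θ := fun y => by
    rw [Real.circleAverage_def, smul_eq_mul]
    congr 1
    refine intervalIntegral.integral_congr fun θ _ => ?_
    rw [hG]
    simp only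
    congr 3
    rw [circleMap, Complex.exp_mul_I, ← Complex.ofReal_cos, ← Complex.ofReal_sin]
    push_cast
    ring
  simp only [hca]
  refine ⟨continuous_const.mul
    (intervalIntegral.continuous_parametric_intervalIntegral_of_continuous' hGc _ _), ?_⟩
  rw [intervalIntegral.integral_const_mul, intervalIntegral_intervalIntegral_swap
    ((hGc.continuousOn.integrableOn_compact (isCompact_uIcc.prod isCompact_uIcc)).mono_set
      (Set.prod_mono Set.uIoc_subset_uIcc Set.uIoc_subset_uIcc))]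
  have hin : ∀ θ, ∫ y in (-T)..T, G y θ ≤ C * (T + 2) := by
    intro θ
    obtain ⟨h1, h2⟩ := abs_le.1 (show |R * Real.sin θ| ≤ R by
      rw [abs_mul, abs_of_pos hR0]; exact mul_le_of_le_one_right hR0.le (Real.abs_sin_le_one θ))
    rw [hG]
    simp only
    rw [intervalIntegral.integral_comp_add_right
      (fun u : ℝ => ‖LFunction χ ((2 + R * Real.cos θ : ℝ) + (u : ℂ) * I)‖ ^ 2)]
    have hc1 := abs_le.1 (Real.abs_cos_le_one θ)
    refine le_trans ?_ (hC (2 + R * Real.cos θ) (T + 2) (by nlinarith) (by nlinarith) (by linarith))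
    exact intervalIntegral.integral_mono_interval (by linarith) (by linarith) (by linarith)
      (Eventually.of_forall fun u => sq_nonneg _)
      (((continuous_lfunction_vert hχ _).norm.pow 2).intervalIntegrable _ _)
  refine (mul_le_mul_of_nonneg_left (intervalIntegral.integral_mono_on Real.two_pi_pos.le
    ((intervalIntegral.continuous_parametric_intervalIntegral_of_continuous'
      (f := fun θ y => G y θ) (hGc.comp continuous_swap) _ _).intervalIntegrable _ _)
    intervalIntegrable_const fun θ _ => hin θ) (by positivity)).trans (le_of_eq ?_)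
  rw [intervalIntegral.integral_const, smul_eq_mul, sub_zero]
  field_simp

/-- **`O (T)` zeros to the right of `σ > 1/2`**, in the form of finite sums. -/
theorem exists_sum_mult_le (hχ : χ ≠ 1) {σ : ℝ} (h0 : 1 / 2 < σ) :
    ∃ K, 0 ≤ K ∧ ∀ (T : ℝ) (F : Finset ℂ), 1 ≤ T →
      (∀ ρ ∈ F, σ ≤ ρ.re ∧ ρ.re < 1 ∧ |ρ.im| ≤ T) →
      (∑ ρ ∈ F, (zeroMult χ ρ : ℝ)) ≤ K * T := by
  obtain ⟨d, hd⟩ : ∃ d, d = min σ (3 / 4) - 1 / 2 := ⟨_, rfl⟩
  have hd0 : 0 < d := by
    rw [hd]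
    linarith [lt_min h0 (show (1 : ℝ) / 2 < 3 / 4 by norm_num)]
  have hd4 : d ≤ 1 / 4 := by
    rw [hd]
    linarith [min_le_right σ (3 / 4 : ℝ)]
  have hdσ : 1 / 2 + d ≤ σ := by
    rw [hd]
    linarith [min_le_left σ (3 / 4 : ℝ)]
  obtain ⟨r, hr⟩ : ∃ r, r = 3 / 2 - 2 * d / 3 := ⟨_, rfl⟩
  obtain ⟨R, hR⟩ : ∃ R, R = 3 / 2 - d / 3 := ⟨_, rfl⟩
  obtain ⟨h, hh⟩ : ∃ h, h = d / 3 := ⟨_, rfl⟩
  have hr0 : 0 < r := by linarith
  have hrR : r < R := by linarith
  have hh0 : 0 < h := by linarith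
  obtain ⟨C, hC0, hC⟩ := exists_meanSquare_sym hχ (σ₀ := 1 / 2 + d / 3) (by linarith)
  obtain ⟨L, hL⟩ : ∃ L, L = Real.log (R / r) := ⟨_, rfl⟩
  have hL0 : 0 < L := hL ▸ Real.log_pos (by rwa [lt_div_iff₀ hr0, one_mul])
  refine ⟨(4 * C + 8) / (2 * h * L), by positivity, fun T F hT hF => ?_⟩
  classical
  obtain ⟨hcac, hca⟩ := integral_circleAverage_le hχ (R := R) (T := T + 1) hC (by linarith)
    (by linarith) (by linarith) (by linarith)
  obtain ⟨g, hg⟩ : ∃ g : ℂ → ℝ → ℝ, g = fun ρ =>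
      (Set.Ioc (ρ.im - h) (ρ.im + h)).indicator fun _ => (zeroMult χ ρ : ℝ) * L := ⟨_, rfl⟩
  have hgint : ∀ ρ, Integrable (g ρ) volume := fun ρ => by
    rw [hg]
    exact (integrable_indicator_iff measurableSet_Ioc).2 (integrableOn_const (by simp))
  have hgI : ∀ ρ ∈ F, ∫ y in (-(T + 1))..(T + 1), g ρ y = 2 * h * ((zeroMult χ ρ : ℝ) * L) := by
    intro ρ hρ
    obtain ⟨-, -, h5⟩ := hF ρ hρ
    obtain ⟨h5, h6⟩ := abs_le.1 h5
    rw [hg, intervalIntegral.integral_of_le (by linarith), setIntegral_indicator measurableSet_Ioc,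
      Set.Ioc_inter_Ioc, max_eq_right (by linarith), min_eq_right (by linarith),
      setIntegral_const, smul_eq_mul, Real.volume_real_Ioc_of_le (by linarith)]
    ring
  have hpt : ∀ y ∈ Set.Icc (-(T + 1)) (T + 1), ∑ ρ ∈ F, g ρ y ≤
      Real.circleAverage (fun z => ‖LFunction χ z‖ ^ 2) (((2 : ℝ) : ℂ) + y * I) R + 2 := by
    intro y _
    refine le_trans (le_of_eq ?_) (mult_mul_log_le hχ (by simp) hr0 hrR
      (F.filter fun ρ => y ∈ Set.Ioc (ρ.im - h) (ρ.im + h)) fun ρ hρ => ?_)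
    · rw [← hL, sum_mul, sum_filter, hg]
      exact sum_congr rfl fun ρ _ => by simp [Set.indicator_apply]
    · obtain ⟨hρF, hρy⟩ := mem_filter.1 hρ
      obtain ⟨hre, hre1, -⟩ := hF ρ hρF
      refine (Complex.norm_le_abs_re_add_abs_im _).trans ?_
      have e1 : (((2 : ℝ) : ℂ) + y * I - ρ).re = 2 - ρ.re := by simp
      have e2 : (((2 : ℝ) : ℂ) + y * I - ρ).im = y - ρ.im := by simp
      rw [e1, e2, abs_of_pos (by linarith)]
      have : |y - ρ.im| ≤ h := abs_le.2 ⟨by linarith [hρy.1], by linarith [hρy.2]⟩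
      linarith
  have hm := intervalIntegral.integral_mono_on (show -(T + 1) ≤ T + 1 by linarith)
    (IntervalIntegrable.sum F fun ρ _ => (hgint ρ).intervalIntegrable)
    ((hcac.intervalIntegrable _ _).add intervalIntegrable_const) fun y hy => by
      simpa only [Finset.sum_apply] using hpt y hy
  rw [intervalIntegral.integral_add (hcac.intervalIntegrable _ _) intervalIntegrable_const,
    intervalIntegral.integral_const, smul_eq_mul] at hm
  simp only [Finset.sum_apply] at hm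
  rw [intervalIntegral.integral_finsetSum fun ρ _ => (hgint ρ).intervalIntegrable,
    sum_congr rfl hgI, ← mul_sum, ← sum_mul] at hm
  rw [div_mul_eq_mul_div, le_div_iff₀ (by positivity)]
  nlinarith [mul_le_mul_of_nonneg_left (show T + 1 + 2 ≤ 4 * T by linarith) hC0]

/-- `N (σ, T, χ)`. -/
def rightSum (χ : DirichletCharacter ℂ q) (σ T : ℝ) : ℕ :=
  ∑ᶠ ρ ∈ {ρ ∈ lZeros χ T | σ ≤ ρ.re}, zeroMult χ ρ

/-- The zeros at distance at least `ε` from the critical line. -/
def offSum (χ : DirichletCharacter ℂ q) (ε T : ℝ) : ℕ :=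
  ∑ᶠ ρ ∈ {ρ ∈ lZeros χ T | ε ≤ |ρ.re - 1 / 2|}, zeroMult χ ρ

theorem finsum_sep_eq (hχ : χ ≠ 1) (T : ℝ) (p : ℂ → Prop) [DecidablePred p] (f : ℂ → ℕ) :
    ∑ᶠ ρ ∈ {ρ ∈ lZeros χ T | p ρ}, f ρ =
      ∑ ρ ∈ (finite_lZeros hχ T).toFinset.filter p, f ρ :=
  finsum_mem_eq_sum_of_subset _ (by intro ρ hρ; simpa using hρ.1) (by simp)

/-- **Bohr–Landau: `N (σ, T, χ) = O (T)`.** -/
theorem exists_rightSum_le (hχ : χ ≠ 1) {σ : ℝ} (h0 : 1 / 2 < σ) :
    ∃ K, 0 ≤ K ∧ ∀ T, 1 ≤ T → (rightSum χ σ T : ℝ) ≤ K * T := by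
  classical
  obtain ⟨K, hK0, hK⟩ := exists_sum_mult_le hχ h0
  refine ⟨K, hK0, fun T hT => ?_⟩
  rw [rightSum, finsum_sep_eq hχ, Nat.cast_sum]
  refine hK T _ hT fun ρ hρ => ?_
  rw [mem_filter, Set.Finite.mem_toFinset] at hρ
  obtain ⟨⟨-, -, h1, h2⟩, hσ⟩ := hρ
  exact ⟨hσ, h1, h2⟩

/-- `ρ` and `1 - ρ` for `χ` and `χ⁻¹`. -/
theorem zeroMult_one_sub (hp : χ.IsPrimitive) (hχ : χ ≠ 1) {ρ : ℂ} (h0 : 0 < ρ.re)
    (h1 : ρ.re < 1) : zeroMult χ⁻¹ (1 - ρ) = zeroMult χ ρ := by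
  rw [zeroMult, zeroMult, ← analyticOrderNatAt_completed (inv_ne_one' hχ)
    (by rw [sub_re, one_re]; linarith), ← analyticOrderNatAt_completed hχ h0]
  have hd := DirichletCharacter.differentiable_completedLFunction hχ
  have hd' := DirichletCharacter.differentiable_completedLFunction (inv_ne_one' hχ)
  have hu : AnalyticAt ℂ (fun s : ℂ => (q : ℂ) ^ (s - 1 / 2) * rootNumber χ) (1 - ρ) :=
    (Differentiable.mul_const (fun s => DifferentiableAt.const_cpow
      (differentiableAt_id.sub_const _) (Or.inl level_cast_ne_zero)) _).analyticAt _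
  have he : (completedLFunction χ ∘ fun s : ℂ => 1 - s) =
      (fun s : ℂ => (q : ℂ) ^ (s - 1 / 2) * rootNumber χ) * completedLFunction χ⁻¹ :=
    funext fun s => hp.completedLFunction_one_sub s
  have hc : (q : ℂ) ^ (1 - ρ - 1 / 2) * rootNumber χ ≠ 0 :=
    mul_ne_zero (Complex.cpow_ne_zero_iff.2 (Or.inl level_cast_ne_zero))
      (rootNumber_ne_zero' hp hχ)
  have hg : AnalyticAt ℂ (fun s : ℂ => 1 - s) (1 - ρ) := analyticAt_const.sub analyticAt_id
  have h := analyticOrderAt_mul hu (hd'.analyticAt (1 - ρ))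
  rw [← he, analyticOrderAt_comp_of_deriv_ne_zero hg (by simp), sub_sub_cancel,
    hu.analyticOrderAt_eq_zero.2 hc, zero_add] at h
  rw [analyticOrderNatAt, analyticOrderNatAt, h]

/-- **`O (T)` zeros at distance `≥ ε` from the critical line.** -/
theorem exists_offSum_le (hp : χ.IsPrimitive) (hχ : χ ≠ 1) {ε : ℝ} (hε : 0 < ε) :
    ∃ K, 0 ≤ K ∧ ∀ T, 1 ≤ T → (offSum χ ε T : ℝ) ≤ K * T := by
  classical
  obtain ⟨K, hK0, hK⟩ := exists_sum_mult_le hχ (σ := 1 / 2 + ε) (by linarith)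
  obtain ⟨K', hK0', hK'⟩ := exists_sum_mult_le (inv_ne_one' hχ) (σ := 1 / 2 + ε) (by linarith)
  refine ⟨K + K', by positivity, fun T hT => ?_⟩
  obtain ⟨Z, hZ⟩ : ∃ Z, Z = (finite_lZeros hχ T).toFinset.filter fun ρ => ε ≤ |ρ.re - 1 / 2| :=
    ⟨_, rfl⟩
  rw [offSum, finsum_sep_eq hχ, ← hZ,
    ← sum_filter_add_sum_filter_not Z (fun ρ => 1 / 2 + ε ≤ ρ.re), Nat.cast_add, add_mul]
  have hmem : ∀ ρ ∈ Z, 0 < ρ.re ∧ ρ.re < 1 ∧ |ρ.im| ≤ T ∧ ε ≤ |ρ.re - 1 / 2| := fun ρ hρ => by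
    rw [hZ, mem_filter, Set.Finite.mem_toFinset] at hρ
    exact ⟨hρ.1.2.1, hρ.1.2.2.1, hρ.1.2.2.2, hρ.2⟩
  refine add_le_add ?_ ?_
  · rw [Nat.cast_sum]
    refine hK T _ hT fun ρ hρ => ?_
    obtain ⟨hρ, h⟩ := mem_filter.1 hρ
    exact ⟨h, (hmem ρ hρ).2.1, (hmem ρ hρ).2.2.1⟩
  · have h := hK' T ((Z.filter fun ρ => ¬1 / 2 + ε ≤ ρ.re).image fun ρ => 1 - ρ) hT fun ρ' hρ' => by
      obtain ⟨ρ, hρ, rfl⟩ := mem_image.1 hρ'
      obtain ⟨hρ, hn⟩ := mem_filter.1 hρ
      obtain ⟨a, b, c, d⟩ := hmem ρ hρ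
      rw [sub_re, one_re, sub_im, one_im, zero_sub, abs_neg]
      refine ⟨?_, by linarith, c⟩
      rcases le_abs.1 d with d | d <;> linarith [not_le.1 hn]
    rw [sum_image fun a _ b _ e => sub_right_injective e] at h
    rw [Nat.cast_sum]
    refine le_trans (le_of_eq (sum_congr rfl fun ρ hρ => ?_)) h
    obtain ⟨hρ, -⟩ := mem_filter.1 hρ
    rw [zeroMult_one_sub hp hχ (hmem ρ hρ).1 (hmem ρ hρ).2.1]

/-- `T = o (N (T, χ))`. -/
theorem tendsto_div_lZeroCount (hp : χ.IsPrimitive) (hχ : χ ≠ 1) :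
    Tendsto (fun T : ℝ => T / lZeroCount χ T) atTop (𝓝 0) := by
  obtain ⟨C, hC, h⟩ := exists_lZeroCount
  refine squeeze_zero' ?_ ?_
    ((tendsto_const_nhds (x := 4 * π)).div_atTop Real.tendsto_log_atTop)
  · filter_upwards [eventually_ge_atTop 0] with T hT
    positivity
  filter_upwards [eventually_ge_atTop 1024, eventually_ge_atTop (4 * π * C)] with T hT hTC
  have hl : 0 < Real.log T := Real.log_pos (by linarith)
  have h1 := (abs_le.1 (h q χ hp hχ T (by linarith))).1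
  have h2 := lMain_ge q hT
  have h3 : C ≤ T / (4 * π) := by
    rw [le_div_iff₀ (by positivity)]
    linarith
  have h4 : Real.log T ≤ qLog q T := by
    have hq : (1 : ℝ) ≤ q := Nat.one_le_cast.2 NeZero.one_le
    refine Real.log_le_log (by linarith) ?_
    rw [abs_of_nonneg (by linarith)]
    nlinarith
  have h5 : T / (4 * π) * Real.log T ≤ lZeroCount χ T := by
    refine (mul_le_mul_of_nonneg_left h4 (div_nonneg (by linarith) (by positivity))).trans ?_
    rw [show T / 2 / π = T / (4 * π) + T / (4 * π) by ring] at h2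
    nlinarith [mul_le_mul_of_nonneg_right h3 (hl.le.trans h4)]
  refine (div_le_div_of_nonneg_left (by linarith)
    (mul_pos (div_pos (by linarith) (by positivity)) hl) h5).trans (le_of_eq ?_)
  field_simp

/-- **Almost all zeros are within `ε` of the critical line.** -/
theorem tendsto_offSum (hp : χ.IsPrimitive) (hχ : χ ≠ 1) {ε : ℝ} (hε : 0 < ε) :
    Tendsto (fun T : ℝ => (offSum χ ε T : ℝ) / lZeroCount χ T) atTop (𝓝 0) := by
  obtain ⟨K, hK0, hK⟩ := exists_offSum_le hp hχ hε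
  have hlim := (tendsto_div_lZeroCount hp hχ).const_mul K
  rw [mul_zero] at hlim
  refine squeeze_zero' (Eventually.of_forall fun T => by positivity) ?_ hlim
  filter_upwards [eventually_ge_atTop (1 : ℝ)] with T hT
  rw [mul_div_assoc']
  exact div_le_div_of_nonneg_right (hK T hT) (Nat.cast_nonneg _)

end FA.DirichletOrdinates

end
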