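import Fermat.Agent.DirichletOrdinates.Density
import Fermat.Agent.DirichletLandau.Main
import Fermat.Agent.ZeroOrdinates.Equidistribution

/-!
# The ordinates of the zeros of `L (s, χ)` are equidistributed

Landau's formula bounds `∑ x ^ ρ` by `o (N (T, χ))`; almost all `re ρ` are near `1/2`, so
`∑ exp (i a γ) = o (N (T, χ))` for `a ≠ 0`, and Weyl's criterion applies.
-/

set_option autoImplicit false

noncomputable section

namespace FA.DirichletOrdinates

open Finset Complex Filter Topology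
open FA.DirichletZeroCount FA.DirichletLandau
open FA.ZeroOrdinates (osc norm_osc cpow_line conj_osc)
open FA.Equidist
open FA.ThreePrimes (eAdd)
open scoped Real

variable {q : ℕ} [NeZero q] {χ : DirichletCharacter ℂ q}

/-- `∑ exp (i a γ)` over the zeros with `|γ| ≤ T`, with multiplicity. -/
def ordSum (χ : DirichletCharacter ℂ q) (a T : ℝ) : ℂ :=
  ∑ᶠ ρ ∈ lZeros χ T, (zeroMult χ ρ : ℂ) * osc a ρ.im

/-- The zeros with `|γ| ≤ T` and `fract (α γ) ∈ [a, b)`, with multiplicity. -/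
def ordCount (χ : DirichletCharacter ℂ q) (α a b T : ℝ) : ℕ :=
  ∑ᶠ ρ ∈ {ρ ∈ lZeros χ T | Int.fract (α * ρ.im) ∈ Set.Ico a b}, zeroMult χ ρ

theorem ordSum_eq_sum (hχ : χ ≠ 1) (a T : ℝ) :
    ordSum χ a T = ∑ ρ ∈ zerosUp χ hχ T, (zeroMult χ ρ : ℂ) * osc a ρ.im :=
  finsum_mem_eq_finite_toFinset_sum _ _

theorem tendsto_zeroSum_div (hp : χ.IsPrimitive) (hχ : χ ≠ 1) {x : ℝ} (hx : 1 < x) :
    Tendsto (fun T : ℝ => ‖zeroSum χ x T‖ / lZeroCount χ T) atTop (𝓝 0) := by
  obtain ⟨C, hC, h⟩ := exists_landau hp hχ hx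
  obtain ⟨w, hw⟩ : ∃ w : ℂ, w = coefAt (lamChar χ) x := ⟨_, rfl⟩
  simp only [← hw] at h
  have hlim := (tendsto_div_lZeroCount hp hχ).const_mul (4 * C + ‖w‖)
  rw [mul_zero] at hlim
  refine squeeze_zero' (Eventually.of_forall fun T => by positivity) ?_ hlim
  filter_upwards [eventually_ge_atTop 2] with T hT
  rw [mul_div_assoc']
  refine div_le_div_of_nonneg_right ?_ (Nat.cast_nonneg _)
  have h2 : Real.log T ^ 2 ≤ 4 * T := by
    have h3 := Real.log_le_sub_one_of_pos (Real.sqrt_pos.2 (show 0 < T by linarith))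
    rw [Real.log_sqrt (by linarith)] at h3
    have h4 : 0 ≤ Real.log T := Real.log_nonneg (by linarith)
    nlinarith [Real.mul_self_sqrt (show 0 ≤ T by linarith), Real.sqrt_nonneg T]
  have h5 := norm_le_norm_add_norm_sub' (zeroSum χ x T) (-(((T / π : ℝ) : ℂ) * w))
  rw [sub_neg_eq_add, norm_neg, norm_mul, Complex.norm_real,
    Real.norm_of_nonneg (div_nonneg (by linarith) Real.pi_pos.le)] at h5
  have h6 : T / π ≤ T := div_le_self (by linarith) (by linarith [Real.two_le_pi])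
  nlinarith [h T hT, mul_le_mul_of_nonneg_left h2 hC,
    mul_le_mul_of_nonneg_right h6 (norm_nonneg w)]

theorem tendsto_ordSum_pos (hp : χ.IsPrimitive) (hχ : χ ≠ 1) {a : ℝ} (ha : 0 < a) :
    Tendsto (fun T : ℝ => ‖ordSum χ a T‖ / lZeroCount χ T) atTop (𝓝 0) := by
  classical
  obtain ⟨x, hx⟩ : ∃ x, x = Real.exp a := ⟨_, rfl⟩
  have hx1 : 1 < x := hx ▸ Real.one_lt_exp_iff.2 ha
  have hx0 : 0 < x := by linarith
  have hlx : Real.log x = a := by rw [hx, Real.log_exp]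
  rw [Metric.tendsto_atTop]
  intro ε hε
  obtain ⟨η, hη, hcont⟩ := Metric.continuousAt_iff.1
    ((Real.continuous_const_rpow hx0.ne').continuousAt (x := (1 / 2 : ℝ))) (ε / 3) (by linarith)
  have h1 := (tendsto_zeroSum_div hp hχ hx1).eventually
    (eventually_lt_nhds (show 0 < ε / 3 by linarith))
  have h2 := ((tendsto_offSum hp hχ hη).const_mul (2 * x)).eventually
    (eventually_lt_nhds (show 2 * x * 0 < ε / 3 by linarith))
  rw [← eventually_atTop]
  filter_upwards [h1, h2, (tendsto_lZeroCount hp hχ).eventually (eventually_gt_atTop 0)]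
    with T h1 h2 hN
  rw [Real.dist_0_eq_abs, abs_of_nonneg (by positivity)]
  have hbd : ‖ordSum χ a T‖ ≤
      ‖zeroSum χ x T‖ + (ε / 3 * lZeroCount χ T + 2 * x * offSum χ η T) := by
    have hhalf : 1 ≤ x ^ (1 / 2 : ℝ) := Real.one_le_rpow hx1.le (by norm_num)
    have hdiff : ‖((x ^ (1 / 2 : ℝ) : ℝ) : ℂ) * ordSum χ a T - zeroSum χ x T‖ ≤
        ε / 3 * lZeroCount χ T + 2 * x * offSum χ η T := by
      rw [ordSum_eq_sum hχ, zeroSum_eq_sum hχ, mul_sum, ← sum_sub_distrib, lZeroCount_eq_sum hχ,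
        Nat.cast_sum, mul_sum, offSum, finsum_sep_eq hχ, Nat.cast_sum, mul_sum, sum_filter]
      rw [← zerosUp, ← sum_add_distrib]
      refine norm_sum_le_of_le _ fun ρ hρ => ?_
      obtain ⟨-, b0, b1, -⟩ := (Set.Finite.mem_toFinset _).1 hρ
      rw [← re_add_im ρ, cpow_line hx0, hlx, re_add_im, ← zeroMult,
        show ((x ^ (1 / 2 : ℝ) : ℝ) : ℂ) * ((zeroMult χ ρ : ℂ) * osc a ρ.im) -
          (zeroMult χ ρ : ℂ) * (((x ^ ρ.re : ℝ) : ℂ) * osc a ρ.im) =
          (zeroMult χ ρ : ℂ) * ((x ^ (1 / 2 : ℝ) - x ^ ρ.re : ℝ) : ℂ) * osc a ρ.im by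
            push_cast; ring,
        norm_mul, norm_mul, norm_osc, mul_one, Complex.norm_natCast, Complex.norm_real,
        Real.norm_eq_abs]
      have hm : (0 : ℝ) ≤ zeroMult χ ρ := Nat.cast_nonneg _
      split_ifs with hoff
      · have : |x ^ (1 / 2 : ℝ) - x ^ ρ.re| ≤ 2 * x := by
          have u1 := Real.rpow_le_rpow_of_exponent_le hx1.le (show (1 / 2 : ℝ) ≤ 1 by norm_num)
          have u2 := Real.rpow_le_rpow_of_exponent_le hx1.le b1.le
          rw [Real.rpow_one] at u1 u2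
          have u3 := Real.rpow_nonneg hx0.le ρ.re
          have u4 := Real.rpow_nonneg hx0.le (1 / 2 : ℝ)
          rw [abs_le]
          constructor <;> linarith
        nlinarith [mul_le_mul_of_nonneg_left this hm, mul_nonneg hε.le hm]
      · rw [add_zero]
        have h4 := hcont (x := ρ.re) (by rw [Real.dist_eq]; exact not_le.1 hoff)
        rw [Real.dist_eq, abs_sub_comm (x ^ ρ.re) (x ^ (1 / 2 : ℝ))] at h4
        rw [mul_comm (ε / 3)]
        exact mul_le_mul_of_nonneg_left h4.le hm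
    refine le_trans ?_ (le_trans (norm_le_norm_add_norm_sub'
      (((x ^ (1 / 2 : ℝ) : ℝ) : ℂ) * ordSum χ a T) (zeroSum χ x T)) (add_le_add le_rfl hdiff))
    rw [norm_mul, Complex.norm_real, Real.norm_of_nonneg (by linarith)]
    exact le_mul_of_one_le_left (norm_nonneg _) hhalf
  rw [div_lt_iff₀ hN]
  rw [div_lt_iff₀ hN] at h1
  rw [mul_div_assoc', div_lt_iff₀ hN] at h2
  linarith

/-- **The exponential means tend to zero.** -/
theorem tendsto_ordSum (hp : χ.IsPrimitive) (hχ : χ ≠ 1) {a : ℝ} (ha : a ≠ 0) :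
    Tendsto (fun T : ℝ => ordSum χ a T / (lZeroCount χ T : ℂ)) atTop (𝓝 0) := by
  rw [tendsto_zero_iff_norm_tendsto_zero]
  simp only [norm_div, Complex.norm_natCast]
  rcases lt_or_gt_of_ne ha with h | h
  · refine (tendsto_ordSum_pos hp hχ (neg_pos.2 h)).congr fun T => ?_
    have e : ordSum χ (-a) T = (starRingEnd ℂ) (ordSum χ a T) := by
      simp only [ordSum_eq_sum hχ, map_sum, map_mul, map_natCast, conj_osc]
    rw [e, Complex.norm_conj]
  · exact tendsto_ordSum_pos hp hχ h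

/-- An enumeration of the zeros in the strip. -/
theorem exists_lZero_index (hχ : χ ≠ 1) :
    ∃ f : ℂ → ℕ, Set.InjOn f {ρ | ∃ T, ρ ∈ lZeros χ T} := by
  refine Set.countable_iff_exists_injOn.1
    ((Set.countable_iUnion fun n : ℕ => (finite_lZeros hχ n).countable).mono fun ρ hρ => ?_)
  obtain ⟨T, a, b, c, -⟩ := hρ
  exact Set.mem_iUnion.2 ⟨⌈|ρ.im|⌉₊, a, b, c, Nat.le_ceil _⟩

/-- **The ordinates are equidistributed mod 1.** -/
theorem tendsto_ordCount (hp : χ.IsPrimitive) (hχ : χ ≠ 1) {α : ℝ} (hα : α ≠ 0) {a b : ℝ}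
    (ha : 0 ≤ a) (hab : a ≤ b) (hb : b ≤ 1) :
    Tendsto (fun T : ℝ => (ordCount χ α a b T : ℝ) / lZeroCount χ T) atTop (𝓝 (b - a)) := by
  classical
  obtain ⟨f, hf⟩ := exists_lZero_index hχ
  obtain ⟨x, hx⟩ : ∃ x : ℕ → ℝ, x = fun n =>
      α * (Function.invFunOn f {ρ | ∃ T, ρ ∈ lZeros χ T} n.unpair.1).im := ⟨_, rfl⟩
  obtain ⟨s, hs⟩ : ∃ s : ℝ → Finset ℕ, s = fun T =>
      ((zerosUp χ hχ T).sigma fun ρ => range (zeroMult χ ρ)).image
        fun p => Nat.pair (f p.1) p.2 := ⟨_, rfl⟩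
  have hmem : ∀ T, ∀ ρ ∈ zerosUp χ hχ T, ρ ∈ {ρ | ∃ T, ρ ∈ lZeros χ T} := fun T ρ hρ =>
    ⟨T, (Set.Finite.mem_toFinset _).1 hρ⟩
  have hinj : ∀ T, Set.InjOn (fun p : Σ _ : ℂ, ℕ => Nat.pair (f p.1) p.2)
      ↑((zerosUp χ hχ T).sigma fun ρ => range (zeroMult χ ρ)) := by
    rintro T ⟨p, i⟩ hp' ⟨p', j⟩ hq h
    simp only [coe_sigma, Set.mem_sigma_iff, Finset.mem_coe] at hp' hq
    obtain ⟨h1, rfl⟩ := Nat.pair_eq_pair.1 h
    obtain rfl := hf (hmem T _ hp'.1) (hmem T _ hq.1) h1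
    rfl
  have hsum : ∀ (T : ℝ) (g : ℝ → ℂ), ∑ n ∈ s T, g (x n) =
      ∑ ρ ∈ zerosUp χ hχ T, (zeroMult χ ρ : ℂ) * g (α * ρ.im) := fun T g => by
    simp only [hs]
    rw [sum_image (hinj T), sum_sigma]
    refine sum_congr rfl fun ρ hρ => ?_
    have e : ∀ i, x (Nat.pair (f ρ) i) = α * ρ.im := fun i => by
      simp only [hx, Nat.unpair_pair]
      rw [hf.leftInvOn_invFunOn (hmem T ρ hρ)]
    simp only [e, sum_const, card_range, nsmul_eq_mul]
  have hcard : ∀ T, #(s T) = lZeroCount χ T := fun T => by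
    have h1 : ((#(s T) : ℕ) : ℂ) = ((lZeroCount χ T : ℕ) : ℂ) := by
      rw [lZeroCount_eq_sum hχ, Nat.cast_sum]
      simpa [zeroMult, zerosUp] using hsum T fun _ => 1
    exact_mod_cast h1
  have hfilter : ∀ T, #((s T).filter fun n => Int.fract (x n) ∈ Set.Ico a b) =
      ordCount χ α a b T := fun T => by
    have h1 : ((#((s T).filter fun n => Int.fract (x n) ∈ Set.Ico a b) : ℕ) : ℂ) =
        ((ordCount χ α a b T : ℕ) : ℂ) := by
      rw [ordCount, finsum_sep_eq hχ, sum_filter, card_filter, Nat.cast_sum, Nat.cast_sum]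
      push_cast
      refine (hsum T fun t => if Int.fract t ∈ Set.Ico a b then 1 else 0).trans ?_
      refine sum_congr rfl fun ρ _ => ?_
      split_ifs <;> simp
    exact_mod_cast h1
  refine tendsto_iff_seq_tendsto.2 fun u hu => ?_
  have hN : Tendsto (fun N => #(s (u N))) atTop atTop := by
    simp only [hcard]
    exact tendsto_natCast_atTop_iff.1 ((tendsto_lZeroCount hp hχ).comp hu)
  have hexp : ExpMeanZero (fun N => s (u N)) x := fun h hh => by
    refine ((tendsto_ordSum hp hχ (mul_ne_zero (mul_ne_zero (mul_ne_zero two_ne_zero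
      Real.pi_ne_zero) (Int.cast_ne_zero.2 hh)) hα)).comp hu).congr fun N => ?_
    rw [avg, hcard, hsum (u N) fun t => eAdd ((h : ℝ) * t), Function.comp_apply, ordSum_eq_sum hχ]
    congr 1
    refine sum_congr rfl fun ρ _ => ?_
    congr 1
    rw [eAdd, osc]
    congr 1
    push_cast
    ring
  refine (hexp.intervalMean hN a b ha hab hb).congr fun N => ?_
  simp only [Function.comp_apply, hfilter, hcard]

end FA.DirichletOrdinates

end
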