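import Fermat.Agent.DirichletOrdinates.MeanSquare

/-!
# The second moment of `L (1/2 + it, χ)`

`∫_0^T ‖L (1/2 + it, χ)‖² dt = (φ q / q) T log T + O_q (T √(log T))`.
-/

set_option autoImplicit false

noncomputable section

namespace FA.DirichletOrdinates

open Finset MeasureTheory Filter
open DirichletCharacter (LFunction)
open scoped Real Topology

variable {q : ℕ} [NeZero q] {χ : DirichletCharacter ℂ q}

omit [NeZero q] in
theorem norm_sq_apply (χ : DirichletCharacter ℂ q) (a : ZMod q) [Decidable (IsUnit a)] :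
    ‖χ a‖ ^ 2 = if IsUnit a then 1 else 0 := by
  split_ifs with h
  · obtain ⟨u, rfl⟩ := h
    rw [χ.unit_norm_eq_one, one_pow]
  · rw [χ.map_nonunit h, norm_zero, zero_pow two_ne_zero]

/-- A period of `‖χ‖²`. -/
theorem sum_norm_sq_period (χ : DirichletCharacter ℂ q) :
    ∑ n ∈ range q, ‖χ n‖ ^ 2 = (q.totient : ℝ) := by
  classical
  have e : ∑ a : ZMod q, ‖χ a‖ ^ 2 = ∑ n ∈ range q, ‖χ n‖ ^ 2 :=
    sum_bij (fun a _ => a.val) (fun a _ => mem_range.2 a.val_lt)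
      (fun a _ b _ h => ZMod.val_injective q h)
      (fun n hn => ⟨(n : ZMod q), mem_univ _, ZMod.val_natCast_of_lt (mem_range.1 hn)⟩)
      fun a _ => by rw [ZMod.natCast_zmod_val]
  rw [← e]
  simp only [norm_sq_apply, sum_boole]
  rw [← ZMod.card_units_eq_totient, Nat.cast_inj]
  refine (card_bij (s := (univ : Finset (ZMod q)ˣ)) (fun u _ => (u : ZMod q))
    (fun u _ => mem_filter.2 ⟨mem_univ _, u.isUnit⟩) (fun u _ v _ h => Units.ext h)
    fun a ha => ?_).symm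
  obtain ⟨u, hu⟩ := (mem_filter.1 ha).2
  exact ⟨u, mem_univ _, hu⟩

/-- The partial sums of `‖χ n‖² - φ q / q`. -/
theorem abs_sum_unit_dev_le (χ : DirichletCharacter ℂ q) (m : ℕ) :
    |∑ n ∈ range m, (‖χ n‖ ^ 2 - (q.totient : ℝ) / q)| ≤ q := by
  have hq : (q : ℝ) ≠ 0 := Nat.cast_ne_zero.2 (NeZero.ne q)
  have h1 : ∀ n : ℕ, |‖χ n‖ ^ 2 - (q.totient : ℝ) / q| ≤ 1 := fun n => by
    have a1 : ‖χ n‖ ^ 2 ≤ 1 := pow_le_one₀ (norm_nonneg _) (χ.norm_le_one _)
    have a2 : (q.totient : ℝ) / q ≤ 1 := by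
      rw [div_le_one (by positivity)]
      exact Nat.cast_le.2 (Nat.totient_le q)
    have a3 : 0 ≤ (q.totient : ℝ) / q := by positivity
    rw [abs_le]
    constructor <;> linarith [sq_nonneg ‖χ n‖]
  induction m using Nat.strong_induction_on with
  | h m ih =>
    rcases lt_or_ge m q with hm | hm
    · refine (abs_sum_le_sum_abs _ _).trans ((sum_le_sum fun n _ => h1 n).trans ?_)
      simpa using hm.le
    · obtain ⟨k, rfl⟩ := Nat.exists_eq_add_of_le hm
      rw [sum_range_add]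
      have h0 : ∑ n ∈ range q, (‖χ n‖ ^ 2 - (q.totient : ℝ) / q) = 0 := by
        rw [sum_sub_distrib, sum_norm_sq_period, sum_const, card_range, nsmul_eq_mul,
          mul_div_cancel₀ _ hq, sub_self]
      rw [h0, zero_add]
      have e : ∀ n : ℕ, χ ((q + n : ℕ) : ZMod q) = χ (n : ZMod q) := fun n => by simp
      simp only [e]
      exact ih k (by have := NeZero.pos q; omega)

/-- The coefficient sum on the line. -/
theorem abs_cSum_half_sub_le (χ : DirichletCharacter ℂ q) (M : ℕ) :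
    |cSum χ (1 / 2) M - (q.totient : ℝ) / q * harmonic M| ≤ 2 * q := by
  obtain ⟨g, hg⟩ : ∃ g : ℕ → ℝ, g = fun n : ℕ => ‖χ n‖ ^ 2 - (q.totient : ℝ) / q := ⟨_, rfl⟩
  have hb : ∀ m, |∑ n ∈ range m, g n| ≤ q := hg ▸ abs_sum_unit_dev_le χ
  have e : cSum χ (1 / 2) M - (q.totient : ℝ) / q * harmonic M =
      ∑ n ∈ Ico 1 (M + 1), 1 / (n : ℝ) * g n := by
    rw [cSum, harmonic_eq_sum_Icc, Rat.cast_sum, mul_sum, ← sum_sub_distrib,
      show Icc 1 M = Ico 1 (M + 1) from rfl, hg]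
    refine sum_congr rfl fun n hn => ?_
    rw [show (-(2 * (1 / 2)) : ℝ) = -1 by norm_num, Real.rpow_neg_one]
    push_cast
    ring
  rw [e, ← Real.norm_eq_abs, ← Complex.norm_real, Complex.ofReal_sum]
  simp only [Complex.ofReal_mul]
  refine (FA.Subconvexity.norm_sum_weight_le (w := fun n => 1 / (n : ℝ))
    (c := fun n => ((g n : ℝ) : ℂ)) (B := 2 * q) (by omega) (fun m _ _ => by positivity)
    (fun m hm _ => one_div_le_one_div_of_le (Nat.cast_pos.2 hm) (Nat.cast_le.2 m.le_succ))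
    fun m hm _ => ?_).trans (le_of_eq (by simp))
  rw [← Complex.ofReal_sum, Complex.norm_real, Real.norm_eq_abs, sum_Ico_eq_sub _ hm]
  exact (abs_sub _ _).trans (by linarith [hb m, hb 1])

/-- **The second moment, from `2` on.** -/
theorem exists_moment_sub_le (hχ : χ ≠ 1) :
    ∃ C, 0 ≤ C ∧ ∀ T : ℝ, 3 ≤ T →
      |(∫ t in (2 : ℝ)..T, ‖LFunction χ ((1 / 2 : ℝ) + t * Complex.I)‖ ^ 2) -
        (q.totient : ℝ) / q * (T * Real.log T)| ≤ C * (T * √(Real.log T)) := by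
  obtain ⟨K, hK0, hK⟩ := exists_integral_charErr_le hχ
  have hq : (1 : ℝ) ≤ q := by exact_mod_cast NeZero.pos q
  obtain ⟨φ, hφ⟩ : ∃ φ : ℝ, φ = (q.totient : ℝ) / q := ⟨_, rfl⟩
  have hφ0 : 0 ≤ φ := hφ ▸ by positivity
  have hφ1 : φ ≤ 1 := by
    rw [hφ, div_le_one (by positivity)]
    exact Nat.cast_le.2 (Nat.totient_le q)
  refine ⟨60 * q + 2 * K, by positivity, fun T hT => ?_⟩
  rw [← hφ]
  have hT0 : 0 < T := by linarith
  obtain ⟨M, hM⟩ : ∃ M, M = charCut q T := ⟨_, rfl⟩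
  obtain ⟨hqM, hM1, hM2⟩ := charCut_spec q (show 1 ≤ T by linarith)
  rw [← hM] at hqM hM1 hM2
  obtain ⟨L, hL⟩ : ∃ L, L = Real.log T := ⟨_, rfl⟩
  have hL1 : 1 ≤ L := by
    rw [hL, Real.le_log_iff_exp_le hT0]
    exact Real.exp_one_lt_three.le.trans hT
  obtain ⟨u, hu⟩ : ∃ u, u = √L := ⟨_, rfl⟩
  have huu : u * u = L := hu ▸ Real.mul_self_sqrt (by linarith)
  have hu1 : 1 ≤ u := hu ▸ Real.one_le_sqrt.2 hL1
  have hTu : T ≤ T * u := le_mul_of_one_le_right hT0.le hu1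
  have hH : |(harmonic M : ℝ) - L| ≤ q := by
    have h := abs_le.1 (FA.SecondMoment.abs_harmonic_sub_log
      (show 1 ≤ (q : ℝ) * T by nlinarith))
    rw [Real.log_mul (by positivity) hT0.ne', ← hL] at h
    rw [hM, charCut]
    have h2 := Real.log_le_sub_one_of_pos (show (0 : ℝ) < q by linarith)
    have h3 := Real.log_nonneg hq
    rw [abs_le]
    constructor <;> linarith
  have hc : |cSum χ (1 / 2) M - φ * L| ≤ 3 * q := by
    have h1 := abs_le.1 (hφ ▸ abs_cSum_half_sub_le χ M)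
    have h2 := abs_le.1 ((abs_mul φ ((harmonic M : ℝ) - L)).trans_le
      (mul_le_mul (le_of_eq_of_le (abs_of_nonneg hφ0) hφ1) hH (abs_nonneg _) zero_le_one))
    rw [abs_le]
    constructor <;> linarith
  have hS := abs_le.1 (abs_integral_charVert χ (1 / 2) M 2 T)
  have he : 6 * π * FA.BohrLandau.eSum (1 / 2) M ≤ 20 * q * T := by
    refine (mul_le_mul_of_nonneg_left ((FA.BohrLandau.eSum_le le_rfl M).trans hM1)
      (by positivity)).trans ?_
    nlinarith [Real.pi_lt_d2, mul_nonneg (Nat.cast_nonneg q : (0 : ℝ) ≤ q) hT0.le]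
  have hE : ∫ t in (2 : ℝ)..T, ‖charErr χ (1 / 2) M t‖ ^ 2 ≤ K * T := by
    have h := hK (1 / 2) T le_rfl (by norm_num) (by linarith)
    rwa [sub_self, Real.rpow_zero, one_pow, mul_one, ← hM] at h
  obtain ⟨hc1, hc2⟩ := abs_le.1 hc
  have hLT : L ≤ T := by
    rw [hL]
    linarith [Real.log_le_sub_one_of_pos hT0]
  have h3 : |(∫ t in (2 : ℝ)..T, ‖charVert χ (1 / 2) M t‖ ^ 2) - φ * (T * L)| ≤
      25 * q * T := by
    have b1 := mul_le_mul_of_nonneg_left hc1 (show 0 ≤ T - 2 by linarith)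
    have b2 := mul_le_mul_of_nonneg_left hc2 (show 0 ≤ T - 2 by linarith)
    have b3 : φ * L ≤ q * T := mul_le_mul (hφ1.trans hq) hLT (by linarith) (by linarith)
    have b4 : 0 ≤ φ * L := mul_nonneg hφ0 (by linarith)
    have b5 : (0 : ℝ) ≤ q := by linarith
    rw [abs_le]
    constructor <;> nlinarith [hS.1, hS.2]
  obtain ⟨S, hSdef⟩ : ∃ S, S = ∫ t in (2 : ℝ)..T, ‖charVert χ (1 / 2) M t‖ ^ 2 := ⟨_, rfl⟩
  rw [← hSdef] at h3
  have hdiff := abs_moment_charVert_le hχ (σ := 1 / 2) (show (2 : ℝ) ≤ T by linarith) M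
    (one_div_pos.2 (show 0 < u by linarith))
  rw [one_div_one_div, ← hSdef] at hdiff
  obtain ⟨h3a, h3b⟩ := abs_le.1 h3
  have h4 : 1 / u * S ≤ T * u + 25 * q * T := by
    have a1 : S ≤ T * (u * u) + 25 * q * T := by
      rw [huu]
      nlinarith [mul_le_mul_of_nonneg_right hφ1 (mul_nonneg hT0.le (show 0 ≤ L by linarith))]
    refine (mul_le_mul_of_nonneg_left a1 (by positivity)).trans ?_
    rw [mul_add]
    refine add_le_add (le_of_eq (by field_simp)) ?_
    exact mul_le_of_le_one_left (by positivity) (by rw [div_le_one (by linarith)]; exact hu1)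
  have h5 : (1 + u) * (∫ t in (2 : ℝ)..T, ‖charErr χ (1 / 2) M t‖ ^ 2) ≤ 2 * K * (T * u) :=
    (mul_le_mul_of_nonneg_left hE (by linarith)).trans (by nlinarith [mul_nonneg hK0 hT0.le])
  obtain ⟨hd1, hd2⟩ := abs_le.1 hdiff
  rw [← hL, ← hu]
  have b : (q : ℝ) * T ≤ q * (T * u) := mul_le_mul_of_nonneg_left hTu (by linarith)
  have b' : T * u ≤ q * (T * u) := le_mul_of_one_le_left (by positivity) hq
  rw [abs_le]
  constructor <;> linarith

/-- **The second moment of `L (1/2 + it, χ)`.** -/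
theorem exists_second_moment (hχ : χ ≠ 1) :
    ∃ C, ∀ T : ℝ, 3 ≤ T →
      |(∫ t in (0 : ℝ)..T, ‖LFunction χ ((1 / 2 : ℝ) + t * Complex.I)‖ ^ 2) -
        (q.totient : ℝ) / q * (T * Real.log T)| ≤ C * (T * √(Real.log T)) := by
  obtain ⟨C, -, hC⟩ := exists_moment_sub_le hχ
  obtain ⟨A, hA⟩ : ∃ A, A = ∫ t in (0 : ℝ)..2,
      ‖LFunction χ ((1 / 2 : ℝ) + t * Complex.I)‖ ^ 2 := ⟨_, rfl⟩
  refine ⟨|A| + C, fun T hT => ?_⟩
  have hc : ∀ a b : ℝ, IntervalIntegrable
      (fun t : ℝ => ‖LFunction χ ((1 / 2 : ℝ) + t * Complex.I)‖ ^ 2) volume a b := fun a b =>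
    ((continuous_lfunction_vert hχ _).norm.pow 2).intervalIntegrable _ _
  rw [← intervalIntegral.integral_add_adjacent_intervals (hc 0 2) (hc 2 T), ← hA, add_mul,
    add_sub_assoc]
  refine (abs_add_le _ _).trans (add_le_add (le_mul_of_one_le_right (abs_nonneg _) ?_) (hC T hT))
  have h1 : 1 ≤ √(Real.log T) := Real.one_le_sqrt.2 ((Real.le_log_iff_exp_le (by linarith)).2
    (Real.exp_one_lt_three.le.trans hT))
  nlinarith

end FA.DirichletOrdinates

end
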