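import Fermat.Agent.DirichletOrdinates.Approx
import Fermat.Agent.DirichletZeroCount.Basic
import Fermat.Agent.BohrLandau.MeanSquare

/-!
# The mean square of `L (σ + it, χ)` for `σ ≥ 1/2`

`∫_2^T ‖L (σ + it, χ)‖² dt ∼ T ∑ ‖χ n‖² n ^ (-2σ)` for `σ > 1/2`, and `∫_{-T}^T ≤ C T` uniformly
for `σ₀ ≤ σ ≤ 4`.
-/

set_option autoImplicit false

noncomputable section

namespace FA.DirichletOrdinates

open Finset MeasureTheory Filter
open DirichletCharacter (LFunction)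
open scoped Real Topology ComplexConjugate

variable {q : ℕ} [NeZero q] {χ : DirichletCharacter ℂ q}

theorem continuous_lfunction_vert (hχ : χ ≠ 1) (σ : ℝ) :
    Continuous fun t : ℝ => LFunction χ (σ + t * Complex.I) :=
  (DirichletCharacter.differentiable_LFunction hχ).continuous.comp
    (continuous_const.add (Complex.continuous_ofReal.mul continuous_const))

omit [NeZero q] in
theorem continuous_charVert (χ : DirichletCharacter ℂ q) (σ : ℝ) (M : ℕ) :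
    Continuous (charVert χ σ M) := by
  unfold charVert
  refine continuous_finsetSum _ fun n hn => continuous_const.mul ?_
  exact (continuous_const.add (Complex.continuous_ofReal.mul continuous_const)).neg.const_cpow
    (Or.inl (Nat.cast_ne_zero.2 (Nat.one_le_iff_ne_zero.1 (mem_Icc.1 hn).1)))

theorem continuous_charErr (hχ : χ ≠ 1) (σ : ℝ) (M : ℕ) : Continuous (charErr χ σ M) :=
  (continuous_lfunction_vert hχ σ).sub (continuous_charVert χ σ M)

/-- The coefficient sum. -/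
def cSum (χ : DirichletCharacter ℂ q) (σ : ℝ) (M : ℕ) : ℝ :=
  ∑ n ∈ Icc 1 M, ‖χ n‖ ^ 2 * (n : ℝ) ^ (-(2 * σ))

omit [NeZero q] in
theorem cSum_nonneg (χ : DirichletCharacter ℂ q) (σ : ℝ) (M : ℕ) : 0 ≤ cSum χ σ M :=
  sum_nonneg fun n _ => by positivity

omit [NeZero q] in
/-- The mean square of the partial sum. -/
theorem abs_integral_charVert (χ : DirichletCharacter ℂ q) (σ : ℝ) (M : ℕ) (u v : ℝ) :
    |(∫ t in u..v, ‖charVert χ σ M t‖ ^ 2) - (v - u) * cSum χ σ M| ≤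
      6 * π * FA.BohrLandau.eSum σ M := by
  have h := FA.MeanValue.mean_value_dirichlet (fun n => χ n * (n : ℂ) ^ (-(σ : ℂ))) M u v
  have e : ∀ t : ℝ, charVert χ σ M t = ∑ n ∈ Icc 1 M,
      (χ n * (n : ℂ) ^ (-(σ : ℂ))) * (n : ℂ) ^ (-(Complex.I * (t : ℂ))) := fun t =>
    sum_congr rfl fun n hn => by
      rw [neg_add, Complex.cpow_add _ _ (Nat.cast_ne_zero.2
        (Nat.one_le_iff_ne_zero.1 (mem_Icc.1 hn).1)), mul_comm (t : ℂ), mul_assoc]
  simp only [← e] at h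
  have hn : ∀ n ∈ Icc 1 M, ‖χ n * (n : ℂ) ^ (-(σ : ℂ))‖ ^ 2 =
      ‖χ n‖ ^ 2 * (n : ℝ) ^ (-(2 * σ)) := fun n hn => by
    rw [norm_mul, mul_pow, Complex.norm_natCast_cpow_of_pos (mem_Icc.1 hn).1,
      ← Real.rpow_natCast (((n : ℝ) ^ _)), ← Real.rpow_mul (Nat.cast_nonneg n)]
    simp [mul_comm]
  rw [sum_congr rfl hn] at h
  refine h.trans ?_
  rw [FA.BohrLandau.eSum, mul_sum, mul_sum]
  refine sum_le_sum fun n hn' => ?_
  have hn1 : (1 : ℝ) ≤ n := by exact_mod_cast (mem_Icc.1 hn').1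
  have hc : ‖χ n‖ ^ 2 ≤ 1 := pow_le_one₀ (norm_nonneg _) (χ.norm_le_one _)
  rw [hn n hn', show (1 - 2 * σ) = -(2 * σ) + 1 by ring, Real.rpow_add (by linarith),
    Real.rpow_one]
  have hp := Real.rpow_nonneg (Nat.cast_nonneg n : (0 : ℝ) ≤ n) (-(2 * σ))
  calc 4 * π * (((n : ℝ) + 1 / 2) * (‖χ n‖ ^ 2 * (n : ℝ) ^ (-(2 * σ))))
      ≤ 4 * π * ((3 / 2 * n) * (1 * (n : ℝ) ^ (-(2 * σ)))) := by
        gcongr
        linarith
    _ = 6 * π * ((n : ℝ) ^ (-(2 * σ)) * n) := by ring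

omit [NeZero q] in
theorem summable_cCoef (χ : DirichletCharacter ℂ q) {σ : ℝ} (hσ : 1 / 2 < σ) :
    Summable fun n : ℕ => ‖χ n‖ ^ 2 * (n : ℝ) ^ (-(2 * σ)) :=
  (FA.BohrLandau.summable_neg_two_mul hσ).of_nonneg_of_le (fun n => by positivity) fun n =>
    mul_le_of_le_one_left (Real.rpow_nonneg (Nat.cast_nonneg n) _)
      (pow_le_one₀ (norm_nonneg _) (χ.norm_le_one _))

omit [NeZero q] in
theorem cSum_le (χ : DirichletCharacter ℂ q) {σ₀ σ : ℝ} (h0 : 1 / 2 < σ₀) (h : σ₀ ≤ σ) (M : ℕ) :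
    cSum χ σ M ≤ ∑' n : ℕ, (n : ℝ) ^ (-(2 * σ₀)) :=
  le_trans (sum_le_sum fun n _ => mul_le_of_le_one_left (Real.rpow_nonneg (Nat.cast_nonneg n) _)
    (pow_le_one₀ (norm_nonneg _) (χ.norm_le_one _))) (FA.BohrLandau.dSum_le h0 h M)

omit [NeZero q] in
theorem tendsto_cSum (χ : DirichletCharacter ℂ q) {σ : ℝ} (hσ : 1 / 2 < σ) :
    Tendsto (fun M : ℕ => cSum χ σ M) atTop
      (𝓝 (∑' n : ℕ, ‖χ n‖ ^ 2 * (n : ℝ) ^ (-(2 * σ)))) := by
  refine (((summable_cCoef χ hσ).hasSum.tendsto_sum_nat).comp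
    (tendsto_add_atTop_nat 1)).congr fun M => ?_
  rw [Function.comp_apply, cSum]
  induction M with
  | zero => simp [Real.zero_rpow (show -(2 * σ) ≠ 0 by linarith)]
  | succ m ih => rw [sum_range_succ, ih, sum_Icc_succ_top (by omega)]

/-- The cut used up to height `T`. -/
def charCut (q : ℕ) (T : ℝ) : ℕ := ⌊(q : ℝ) * T⌋₊

theorem charCut_spec (q : ℕ) [NeZero q] {T : ℝ} (hT : 1 ≤ T) :
    q ≤ charCut q T ∧ (charCut q T : ℝ) ≤ q * T ∧ q * T ≤ (charCut q T : ℝ) + 1 := by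
  have hq : (0 : ℝ) ≤ q := Nat.cast_nonneg q
  exact ⟨Nat.le_floor (le_mul_of_one_le_right hq hT), Nat.floor_le (by positivity),
    (Nat.lt_floor_add_one _).le⟩

/-- The mean square of the error. -/
theorem exists_integral_charErr_le (hχ : χ ≠ 1) :
    ∃ K, 0 ≤ K ∧ ∀ σ T : ℝ, 1 / 2 ≤ σ → σ ≤ 4 → 2 ≤ T →
      ∫ t in (2 : ℝ)..T, ‖charErr χ σ (charCut q T) t‖ ^ 2 ≤ K * (T ^ (1 / 2 - σ)) ^ 2 * T := by
  obtain ⟨c, hc⟩ : ∃ c : ℝ, c = (3000 * (q : ℝ) ^ 2) ^ 2 := ⟨_, rfl⟩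
  have hc0 : 0 ≤ c := hc ▸ sq_nonneg _
  refine ⟨c * (2 + 2 * q), by positivity, fun σ T hσ hσ4 hT => ?_⟩
  obtain ⟨M, hM⟩ : ∃ M, M = charCut q T := ⟨_, rfl⟩
  obtain ⟨hqM, hM1, hM2⟩ := charCut_spec q (show 1 ≤ T by linarith)
  rw [← hM] at hqM hM1 hM2
  have hq : (1 : ℝ) ≤ q := by exact_mod_cast NeZero.pos q
  have hM3 : (M : ℝ) + 1 ≤ 2 * q * T := by nlinarith
  obtain ⟨P, hP⟩ : ∃ P, P = T ^ (1 / 2 - σ) := ⟨_, rfl⟩
  have hP0 : 0 ≤ P := hP ▸ Real.rpow_nonneg (by linarith) _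
  have hPM : ((M : ℝ) + 1) ^ (1 / 2 - σ) ≤ P :=
    hP ▸ Real.rpow_le_rpow_of_nonpos (by linarith) (by nlinarith) (by linarith)
  obtain ⟨g, hg⟩ : ∃ g : ℝ → ℝ,
      g = fun t => 2 * c * P ^ 2 + 4 * c * q * P ^ 2 * T * (1 / t ^ 2) := ⟨_, rfl⟩
  have hne : ∀ x ∈ Set.uIcc (2 : ℝ) T, x ≠ 0 := fun x hx => by
    rw [Set.uIcc_of_le hT] at hx
    linarith [hx.1]
  have hci : ContinuousOn (fun t : ℝ => 1 / t ^ 2) (Set.uIcc (2 : ℝ) T) :=
    continuousOn_const.div (continuousOn_id.pow 2) fun x hx => pow_ne_zero 2 (hne x hx)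
  have hgi : IntervalIntegrable g volume 2 T := by
    rw [hg]
    exact (continuousOn_const.add (continuousOn_const.mul hci)).intervalIntegrable
  rw [← hM, ← hP]
  refine (intervalIntegral.integral_mono_on hT
    (((continuous_charErr hχ σ M).norm.pow 2).intervalIntegrable _ _) hgi fun t ht => ?_).trans ?_
  · have ht0 : 0 < t := by linarith [ht.1]
    have h := norm_charErr_le hχ hσ hσ4 (show 1 ≤ t by linarith [ht.1]) hqM
      ((mul_le_mul_of_nonneg_left ht.2 (Nat.cast_nonneg q)).trans hM2)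
    refine (pow_le_pow_left₀ (norm_nonneg _) (h.trans (mul_le_mul_of_nonneg_right
      (mul_le_mul_of_nonneg_left hPM (by positivity)) (by positivity))) 2).trans ?_
    have h1 : (√((M : ℝ) + 1) / t) ^ 2 ≤ 2 * q * T * (1 / t ^ 2) := by
      rw [div_pow, Real.sq_sqrt (by positivity), mul_one_div]
      exact div_le_div_of_nonneg_right hM3 (sq_nonneg t)
    have h2 : (1 + √((M : ℝ) + 1) / t) ^ 2 ≤ 2 + 2 * (2 * q * T * (1 / t ^ 2)) := by
      nlinarith [sq_nonneg (1 - √((M : ℝ) + 1) / t)]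
    rw [hg]
    simp only
    rw [mul_pow, mul_pow, ← hc]
    refine (mul_le_mul_of_nonneg_left h2 (by positivity)).trans (le_of_eq ?_)
    ring
  · simp only [hg]
    rw [intervalIntegral.integral_add intervalIntegrable_const
      (hci.intervalIntegrable.const_mul _), intervalIntegral.integral_const,
      intervalIntegral.integral_const_mul]
    have hd : ∀ x ∈ Set.uIcc (2 : ℝ) T, HasDerivAt (fun y : ℝ => -y⁻¹) (1 / x ^ 2) x :=
      fun x hx => by simpa [one_div] using (hasDerivAt_inv (hne x hx)).fun_neg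
    rw [intervalIntegral.integral_eq_sub_of_hasDerivAt hd hci.intervalIntegrable, smul_eq_mul]
    have h0 : 0 ≤ c * P ^ 2 := by positivity
    have hq0 : (0 : ℝ) ≤ q := Nat.cast_nonneg q
    nlinarith [mul_nonneg h0 (show 0 ≤ T by linarith),
      mul_nonneg (mul_nonneg (mul_nonneg h0 hq0) (show 0 ≤ T by linarith))
        (inv_nonneg.2 (show (0 : ℝ) ≤ T by linarith))]

/-- The comparison of the two mean squares. -/
theorem abs_moment_charVert_le (hχ : χ ≠ 1) {σ a b : ℝ} (hab : a ≤ b) (M : ℕ) {ε : ℝ}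
    (hε : 0 < ε) :
    |(∫ t in a..b, ‖LFunction χ (σ + t * Complex.I)‖ ^ 2) -
        ∫ t in a..b, ‖charVert χ σ M t‖ ^ 2| ≤
      ε * (∫ t in a..b, ‖charVert χ σ M t‖ ^ 2) +
        (1 + 1 / ε) * ∫ t in a..b, ‖charErr χ σ M t‖ ^ 2 := by
  have hcZ : IntervalIntegrable (fun t : ℝ => ‖LFunction χ (σ + t * Complex.I)‖ ^ 2) volume a b :=
    ((continuous_lfunction_vert hχ σ).norm.pow 2).intervalIntegrable _ _
  have hcS : IntervalIntegrable (fun t => ‖charVert χ σ M t‖ ^ 2) volume a b :=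
    ((continuous_charVert χ σ M).norm.pow 2).intervalIntegrable _ _
  have hcE : IntervalIntegrable (fun t => ‖charErr χ σ M t‖ ^ 2) volume a b :=
    ((continuous_charErr hχ σ M).norm.pow 2).intervalIntegrable _ _
  rw [← intervalIntegral.integral_sub hcZ hcS, ← intervalIntegral.integral_const_mul,
    ← intervalIntegral.integral_const_mul,
    ← intervalIntegral.integral_add (hcS.const_mul _) (hcE.const_mul _)]
  exact (intervalIntegral.abs_integral_le_integral_abs hab).trans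
    (intervalIntegral.integral_mono_on hab (hcZ.sub hcS).abs
      ((hcS.const_mul _).add (hcE.const_mul _)) fun t _ =>
        FA.SecondMoment.abs_sq_norm_sub_le _ (charVert χ σ M t) hε)

/-- **The mean square is `O (T)`, uniformly for `σ₀ ≤ σ ≤ 4`.** -/
theorem exists_meanSquare_le (hχ : χ ≠ 1) {σ₀ : ℝ} (h0 : 1 / 2 < σ₀) :
    ∃ C, 0 ≤ C ∧ ∀ σ T : ℝ, σ₀ ≤ σ → σ ≤ 4 → 2 ≤ T →
      ∫ t in (2 : ℝ)..T, ‖LFunction χ (σ + t * Complex.I)‖ ^ 2 ≤ C * T := by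
  obtain ⟨Z, hZ⟩ : ∃ Z, Z = ∑' n : ℕ, (n : ℝ) ^ (-(2 * σ₀)) := ⟨_, rfl⟩
  have hZ0 : 0 ≤ Z := hZ ▸ tsum_nonneg fun n => by positivity
  obtain ⟨K, hK0, hK⟩ := exists_integral_charErr_le hχ
  refine ⟨2 * (Z + 20 * q) + 2 * K, by positivity, fun σ T hσ hσ4 hT => ?_⟩
  have hT0 : 0 < T := by linarith
  obtain ⟨hqM, hM1, -⟩ := charCut_spec q (show 1 ≤ T by linarith)
  have h := abs_le.1 (abs_moment_charVert_le hχ (σ := σ) hT (charCut q T) one_pos)
  have hS := (abs_le.1 (abs_integral_charVert χ σ (charCut q T) 2 T)).2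
  have he := (FA.BohrLandau.eSum_le (show 1 / 2 ≤ σ by linarith) (charCut q T)).trans hM1
  have hE := hK σ T (by linarith) hσ4 hT
  have hP : (T ^ (1 / 2 - σ)) ^ 2 ≤ 1 :=
    pow_le_one₀ (Real.rpow_nonneg hT0.le _)
      (Real.rpow_le_one_of_one_le_of_nonpos (by linarith) (by linarith))
  have h6 : 6 * π * FA.BohrLandau.eSum σ (charCut q T) ≤ 20 * q * T := by
    refine (mul_le_mul_of_nonneg_left he (by positivity)).trans ?_
    nlinarith [Real.pi_lt_d2, mul_nonneg (Nat.cast_nonneg q : (0 : ℝ) ≤ q) hT0.le]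
  have hd := hZ ▸ cSum_le χ h0 hσ (charCut q T)
  have h7 : (T - 2) * cSum χ σ (charCut q T) ≤ T * Z :=
    mul_le_mul (by linarith) hd (cSum_nonneg _ _ _) hT0.le
  have h8 : K * (T ^ (1 / 2 - σ)) ^ 2 * T ≤ K * T :=
    mul_le_mul_of_nonneg_right (mul_le_of_le_one_right hK0 hP) hT0.le
  linarith [h.2]

theorem norm_lfunction_conj (hχ : χ ≠ 1) {σ : ℝ} (hσ : 0 < σ) (t : ℝ) :
    ‖LFunction χ (σ + (-t : ℝ) * Complex.I)‖ = ‖LFunction χ⁻¹ (σ + t * Complex.I)‖ := by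
  rw [← Complex.norm_conj (LFunction χ _),
    ← FA.DirichletZeroCount.lfunction_conj_inv hχ (by simp; linarith)]
  congr 2
  simp

/-- **The mean square on both sides.** -/
theorem exists_meanSquare_sym (hχ : χ ≠ 1) {σ₀ : ℝ} (h0 : 1 / 2 < σ₀) :
    ∃ C, 0 ≤ C ∧ ∀ σ T : ℝ, σ₀ ≤ σ → σ ≤ 4 → 2 ≤ T →
      ∫ t in (-T)..T, ‖LFunction χ (σ + t * Complex.I)‖ ^ 2 ≤ C * T := by
  obtain ⟨C₁, hC₁, h1⟩ := exists_meanSquare_le hχ h0
  obtain ⟨C₂, hC₂, h2⟩ := exists_meanSquare_le (FA.DirichletZeroCount.inv_ne_one' hχ) h0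
  obtain ⟨B, hB⟩ := (isCompact_Icc.reProdIm isCompact_Icc :
      IsCompact (Set.Icc (σ₀ : ℝ) 4 ×ℂ Set.Icc (-2 : ℝ) 2)).exists_bound_of_continuousOn
    (DirichletCharacter.differentiable_LFunction hχ).continuous.continuousOn
  refine ⟨C₁ + C₂ + 2 * B ^ 2, by positivity, fun σ T hσ hσ4 hT => ?_⟩
  have hi : ∀ a b : ℝ, IntervalIntegrable
      (fun t : ℝ => ‖LFunction χ (σ + t * Complex.I)‖ ^ 2) volume a b := fun a b =>
    ((continuous_lfunction_vert hχ σ).norm.pow 2).intervalIntegrable _ _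
  rw [← intervalIntegral.integral_add_adjacent_intervals (hi (-T) (-2)) (hi (-2) T),
    ← intervalIntegral.integral_add_adjacent_intervals (hi (-2) 2) (hi 2 T),
    ← intervalIntegral.integral_comp_neg]
  have e : (∫ t in (2 : ℝ)..T, ‖LFunction χ (σ + ((-t : ℝ) : ℂ) * Complex.I)‖ ^ 2) ≤ C₂ * T := by
    simp only [norm_lfunction_conj hχ (show 0 < σ by linarith)]
    exact h2 σ T hσ hσ4 hT
  have hm : (∫ t in (-2 : ℝ)..2, ‖LFunction χ (σ + t * Complex.I)‖ ^ 2) ≤ 4 * B ^ 2 := by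
    refine (intervalIntegral.integral_mono_on (by norm_num) (hi _ _) intervalIntegrable_const
      fun t ht => pow_le_pow_left₀ (norm_nonneg _) (hB _ ?_) 2).trans (le_of_eq ?_)
    · rw [Complex.mem_reProdIm]
      simpa using ⟨⟨hσ, hσ4⟩, ht.1, ht.2⟩
    · rw [intervalIntegral.integral_const, smul_eq_mul]
      ring
  have := mul_le_mul_of_nonneg_left hT (sq_nonneg B)
  linarith [h1 σ T hσ hσ4 hT]

/-- **The mean square on `re s = σ > 1/2`.** -/
theorem tendsto_meanSquare (hχ : χ ≠ 1) {σ : ℝ} (hσ : 1 / 2 < σ) (hσ4 : σ ≤ 4) :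
    Tendsto (fun T : ℝ => (∫ t in (2 : ℝ)..T, ‖LFunction χ (σ + t * Complex.I)‖ ^ 2) / T) atTop
      (𝓝 (∑' n : ℕ, ‖χ n‖ ^ 2 * (n : ℝ) ^ (-(2 * σ)))) := by
  obtain ⟨Z, hZ⟩ : ∃ Z, Z = ∑' n : ℕ, ‖χ n‖ ^ 2 * (n : ℝ) ^ (-(2 * σ)) := ⟨_, rfl⟩
  rw [← hZ]
  have hq : (0 : ℝ) < q := Nat.cast_pos.2 (NeZero.pos q)
  have hfl : Tendsto (fun T : ℝ => charCut q T) atTop atTop :=
    tendsto_nat_floor_atTop.comp (tendsto_id.const_mul_atTop hq)
  have hS : Tendsto (fun T : ℝ => (∫ t in (2 : ℝ)..T, ‖charVert χ σ (charCut q T) t‖ ^ 2) / T)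
      atTop (𝓝 Z) := by
    have h1 : Tendsto (fun T : ℝ => (T - 2) / T * cSum χ σ (charCut q T)) atTop (𝓝 (1 * Z)) := by
      refine Tendsto.mul ?_ (hZ ▸ (tendsto_cSum χ hσ).comp hfl)
      have := (tendsto_const_nhds (x := (1 : ℝ))).sub
        ((tendsto_const_nhds (x := (2 : ℝ))).div_atTop (tendsto_id (α := ℝ)))
      rw [sub_zero] at this
      refine this.congr' ?_
      filter_upwards [eventually_gt_atTop (0 : ℝ)] with T hT
      simp only [id_eq]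
      rw [sub_div, div_self hT.ne']
    have h2 : Tendsto (fun T : ℝ => 6 * π * q *
        (FA.BohrLandau.eSum σ (charCut q T) / (charCut q T : ℝ))) atTop (𝓝 0) := by
      simpa using ((FA.BohrLandau.tendsto_eSum_div hσ).comp hfl).const_mul (6 * π * q)
    rw [one_mul] at h1
    refine tendsto_of_tendsto_of_dist h1 (squeeze_zero' (Eventually.of_forall fun T =>
      dist_nonneg) ?_ h2)
    filter_upwards [eventually_ge_atTop (2 : ℝ)] with T hT
    obtain ⟨hqM, hM1, -⟩ := charCut_spec q (show 1 ≤ T by linarith)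
    have hM : 0 < (charCut q T : ℝ) := hq.trans_le (Nat.cast_le.2 hqM)
    have hE : 0 ≤ FA.BohrLandau.eSum σ (charCut q T) :=
      sum_nonneg fun n _ => Real.rpow_nonneg (Nat.cast_nonneg n) _
    rw [Real.dist_eq, div_mul_eq_mul_div, ← sub_div, abs_div,
      abs_of_pos (show 0 < T by linarith), abs_sub_comm]
    refine (div_le_div_of_nonneg_right (abs_integral_charVert χ σ _ 2 T)
      (show 0 ≤ T by linarith)).trans ?_
    rw [mul_assoc (6 * π), mul_div_assoc]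
    refine mul_le_mul_of_nonneg_left ?_ (by positivity)
    rw [mul_div_assoc', div_le_div_iff₀ (by linarith) hM]
    nlinarith
  obtain ⟨K, hK0, hK⟩ := exists_integral_charErr_le hχ
  refine Metric.tendsto_nhds.2 fun δ hδ => ?_
  have hZ0 : 0 ≤ Z := hZ ▸ tsum_nonneg fun n => by positivity
  obtain ⟨ε, hε⟩ : ∃ ε, ε = δ / (4 * (Z + 1)) := ⟨_, rfl⟩
  have hε0 : 0 < ε := hε ▸ by positivity
  have h3 : Tendsto (fun T : ℝ => (1 + 1 / ε) * (K * (T ^ (1 / 2 - σ)) ^ 2)) atTop (𝓝 0) := by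
    have := (tendsto_rpow_neg_atTop (show 0 < σ - 1 / 2 by linarith)).pow 2
    simpa [neg_sub] using (this.const_mul K).const_mul (1 + 1 / ε)
  filter_upwards [Metric.tendsto_nhds.1 hS (min (δ / 4) 1) (by positivity),
    h3.eventually_lt_const (show (0 : ℝ) < δ / 4 by linarith), eventually_ge_atTop (2 : ℝ)]
    with T hT h3T hT2
  have hT0 : 0 < T := by linarith
  rw [Real.dist_eq] at hT ⊢
  have h := (abs_moment_charVert_le hχ (σ := σ) hT2 (charCut q T) hε0).trans (add_le_add le_rfl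
    (mul_le_mul_of_nonneg_left (hK σ T hσ.le hσ4 hT2) (by positivity)))
  replace h := div_le_div_of_nonneg_right h hT0.le
  rw [← abs_of_pos hT0, ← abs_div, abs_of_pos hT0, sub_div, add_div, mul_div_assoc,
    ← mul_assoc (1 + 1 / ε), mul_div_cancel_right₀ _ hT0.ne'] at h
  obtain ⟨hb1, hb2⟩ := abs_lt.1 hT
  have hd1 := min_le_left (δ / 4) 1
  have hd2 := min_le_right (δ / 4) 1
  have h4 : ε * ((∫ t in (2 : ℝ)..T, ‖charVert χ σ (charCut q T) t‖ ^ 2) / T) ≤ δ / 4 := by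
    refine (mul_le_mul_of_nonneg_left
      (b := (∫ t in (2 : ℝ)..T, ‖charVert χ σ (charCut q T) t‖ ^ 2) / T)
      (c := Z + 1) (by linarith) hε0.le).trans (le_of_eq ?_)
    rw [hε]
    field_simp
  obtain ⟨hc1, hc2⟩ := abs_le.1 h
  rw [abs_lt]
  constructor <;> linarith

end FA.DirichletOrdinates

end
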